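import Fermat.Agent.ORD.TR.Interface

/-!
# ORD / TR / APPROX : traces and determinants are limits of Hecke operators (helper54)
-/

set_option autoImplicit false

namespace Fermat.Agent.ORD.TR

open Module Polynomial
open Fermat.Agent.ES.Rep Fermat.Agent.ES.RepGalois Fermat.Agent.ES.S31

theorem APPROX_inv_mul_fixes {L : IntermediateField ℚ (AlgebraicClosure ℚ)} {g h : GQ}
    (hgh : ∀ x ∈ L, g x = h x) : ∀ x ∈ L, (h⁻¹ * g) x = x := by
  intro x hx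
  rw [AlgEquiv.mul_apply, hgh x hx]
  exact h.symm_apply_apply x

section Det

variable {A : Type*} [CommRing A] {V : Type*} [AddCommGroup V] [Module A V] [Module.Free A V]
  [Module.Finite A V]

theorem APPROX_det_sub_one_mem (I : Ideal A) (f : Module.End A V)
    (hf : ∀ v, f v - v ∈ I • (⊤ : Submodule A V)) : LinearMap.det f - 1 ∈ I := by
  classical
  let b := Module.Free.chooseBasis A V
  rw [← LinearMap.det_toMatrix b, ← Ideal.Quotient.eq, map_one, RingHom.map_det]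
  have : (Ideal.Quotient.mk I).mapMatrix (LinearMap.toMatrix b b f) = 1 := by
    ext i j
    rw [RingHom.mapMatrix_apply, Matrix.map_apply, LinearMap.toMatrix_apply]
    have h1 := linearMap_mem_of_mem_smul_top I (b.coord i) (hf (b j))
    rw [map_sub, Basis.coord_apply, Basis.coord_apply, Basis.repr_self,
      Finsupp.single_apply] at h1
    rw [Matrix.one_apply]
    have h2 := (Ideal.Quotient.eq (I := I)).mpr h1
    rw [h2]
    by_cases hij : i = j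
    · rw [if_pos hij, if_pos hij.symm, map_one]
    · rw [if_neg hij, if_neg (fun h => hij h.symm), map_zero]
  rw [this, Matrix.det_one]

variable {G : Type*} [Group G] (ρ : G →* Module.End A V)

theorem APPROX_det_sub_mem_of_inv_mul (I : Ideal A) {g h : G}
    (hgh : ∀ v, ρ (h⁻¹ * g) v - v ∈ I • (⊤ : Submodule A V)) :
    LinearMap.det (ρ g) - LinearMap.det (ρ h) ∈ I := by
  have h1 : LinearMap.det (ρ g) - LinearMap.det (ρ h)
      = LinearMap.det (ρ h) * (LinearMap.det (ρ (h⁻¹ * g)) - 1) := by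
    rw [mul_sub, ← map_mul, ← map_mul, mul_inv_cancel_left, mul_one]
  rw [h1]
  exact I.mul_mem_left _ (APPROX_det_sub_one_mem I _ hgh)

theorem APPROX_det_of_charpoly (hV : Module.finrank A V = 2) (f : Module.End A V) (a d : A)
    (h : LinearMap.charpoly f = X ^ 2 - C a * X + C d) : LinearMap.det f = d := by
  rw [LinearMap.det_eq_sign_charpoly_coeff, hV, h]
  simp

end Det

theorem stmt_Approx : Stmt_Approx := by
  intro hFD p _ N _ S 𝒪 _ _ _ _ θ T _ _ _ _ _ _ _ _ E hpT hpS hNS H g n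
  obtain ⟨L₁, hL₁, h₁⟩ := H.ρ.isAdicContinuous n
  obtain ⟨L₂, hL₂, h₂⟩ := E.continuous n
  obtain ⟨L₃, hL₃, h₃⟩ := eps_level' p n
  obtain ⟨L, hL, hLn, hLle⟩ := exists_normal_ge (L₁ ⊔ L₂ ⊔ L₃) inferInstance
  have hle₁ : L₁ ≤ L := le_trans (le_trans le_sup_left le_sup_left) hLle
  have hle₂ : L₂ ≤ L := le_trans (le_trans le_sup_right le_sup_left) hLle
  have hle₃ : L₃ ≤ L := le_trans le_sup_right hLle
  obtain ⟨ℓ, A, σ, k, -, hℓ, hℓS, hA, hσ, hgσ, -⟩ := hFD L g S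
  have hℓS' : ℓ ∉ (↑S : Set ℕ) := by simpa using hℓS
  have hℓN : ¬ ℓ ∣ N := fun h => hℓS (hNS ℓ hℓ h)
  have hℓp : ℓ ≠ p := fun h => hℓS (h ▸ hpS)
  refine ⟨⟨lucas (CuspForm.heckeAlgebra.T hℓ hℓN hℓS')
    (ℓ : CuspForm.heckeAlgebra N 2 (↑S : Set ℕ)) k, ?_, ?_⟩,
    ⟨(ℓ : CuspForm.heckeAlgebra N 2 (↑S : Set ℕ)) ^ k, ?_, ?_⟩⟩
  · rw [theta_lucas_eq_tauE E.ρ (eps p) E.ΘΛ σ _ ℓ (eps_frob p hℓ hℓp hA hσ)
      (fun x => E.comm σ x) (E.eichlerShimura ℓ hℓ hℓN hℓS' hℓp A hA σ hσ) k]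
    refine tauE_congr E.ρ (eps p) (divBy_sub_of_inv_mul E.ρ ?_)
      (h₃ _ _ fun x hx => hgσ x (hle₃ hx))
    intro v
    obtain ⟨w, hw⟩ := h₂ _ (APPROX_inv_mul_fixes fun x hx => hgσ x (hle₂ hx)) v
    exact ⟨w, by rw [LinearMap.sub_apply, Module.End.one_apply, hw]⟩
  · rw [map_lucas, map_natCast, ← trace_pow_of_charpoly H.ρ.finrank_eq (H.ρ.ρ σ) _ _
      (H.charpoly_frob ℓ hℓ hℓN hℓS' A hA σ hσ) k, ← map_pow]
    exact trace_sub_mem_of_inv_mul H.ρ.ρ _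
      (h₁ _ (APPROX_inv_mul_fixes fun x hx => hgσ x (hle₁ hx)))
  · have h4 : E.ΘΛ ((ℓ : CuspForm.heckeAlgebra N 2 (↑S : Set ℕ)) ^ k)
        = ((eps p (σ ^ k) : ℤ_[p]ˣ) : ℤ_[p]) • (1 : Module.End ℤ_[p] E.Λ) := by
      rw [map_pow, map_natCast, map_pow, Units.val_pow_eq_pow_val, eps_frob p hℓ hℓp hA hσ,
        ← Nat.cast_pow, ← Nat.cast_pow, Nat.cast_smul_eq_nsmul, nsmul_one]
    rw [h4, ← sub_smul]
    exact divBy_smul_of_mem (h₃ _ _ fun x hx => hgσ x (hle₃ hx)) _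
  · have h5 : H.π ((ℓ : CuspForm.heckeAlgebra N 2 (↑S : Set ℕ)) ^ k)
        = LinearMap.det (H.ρ.ρ (σ ^ k)) := by
      rw [map_pow, map_natCast, map_pow, map_pow, APPROX_det_of_charpoly H.ρ.finrank_eq (H.ρ.ρ σ)
        _ _ (H.charpoly_frob ℓ hℓ hℓN hℓS' A hA σ hσ)]
    rw [h5]
    exact APPROX_det_sub_mem_of_inv_mul H.ρ.ρ _
      (h₁ _ (APPROX_inv_mul_fixes fun x hx => hgσ x (hle₁ hx)))

end Fermat.Agent.ORD.TR
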