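import Fermat.Agent.ORD.TR.Interface

/-!
# ORD / TR-PUSH (helper99): the range of `thetaHat` is closed, limits are compatible with `piHat`
-/

set_option autoImplicit false

namespace Fermat.Agent.ORD.TR

open TensorProduct
open Fermat.Agent.ES.Rep Fermat.Agent.ES.RepGalois Fermat.Agent.ES.S31

/-- On a free module, an endomorphism with values divisible by `p ^ n` is divisible by `p ^ n`. -/
theorem Push_exists_eq_smul {p : ℕ} [Fact p.Prime] {Λ : Type*} [AddCommGroup Λ] [Module ℤ_[p] Λ]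
    [Module.Free ℤ_[p] Λ] (n : ℕ) (f : Module.End ℤ_[p] Λ) (hf : DivBy n f) :
    ∃ y : Module.End ℤ_[p] Λ, f = (p : ℤ_[p]) ^ n • y := by
  classical
  let b := Module.Free.chooseBasis ℤ_[p] Λ
  choose c hc using hf
  refine ⟨b.constr ℤ_[p] (fun i => c (b i)), ?_⟩
  apply b.ext
  intro i
  rw [LinearMap.smul_apply, Module.Basis.constr_basis, hc]

theorem Push_piHat_smul {p : ℕ} [Fact p.Prime] {X T : Type} [CommRing X] [CommRing T]
    (j : ℤ_[p] →+* T) (π : X →+* T) (r : ℤ_[p]) (b : Rp p X) :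
    piHat j π (r • b) = j r * piHat j π b := by
  have h1 : r • b = (r ⊗ₜ[ℤ] (1 : X)) * b := by
    induction b using TensorProduct.induction_on with
    | zero => rw [smul_zero, mul_zero]
    | tmul a x =>
      rw [TensorProduct.smul_tmul', Algebra.TensorProduct.tmul_mul_tmul, one_mul, smul_eq_mul]
    | add u v hu hv => rw [smul_add, mul_add, hu, hv]
  rw [h1, map_mul, piHat_tmul, map_one, mul_one]

theorem stmt_Push (h : Stmt_ThetaInj) : Stmt_Push := by
  intro p _ X _ _ H Λ _ _ _ _ _ ι hι Θ hΘ ΘΛ hΘΛ T _ _ _ j π hpT a b hab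
  obtain ⟨hfin, hinj, c0, hc0⟩ := h p X H Λ ι hι Θ hΘ ΘΛ hΘΛ
  have hfree : Module.Free ℤ_[p] Λ := Module.Free.of_equiv hι.equiv
  have hfinΛ : Module.Finite ℤ_[p] Λ := Module.Finite.equiv hι.equiv
  let W : Submodule ℤ_[p] (Module.End ℤ_[p] Λ) := LinearMap.range (thetaHat ΘΛ).toLinearMap
  have hpm : (p : ℤ_[p]) ∈ IsLocalRing.maximalIdeal ℤ_[p] := by
    rw [PadicInt.maximalIdeal_eq_span_p]
    exact Ideal.mem_span_singleton_self _
  have haW : a ∈ W := by
    have hmem : W.mkQ a ∈ (⨅ i : ℕ, (IsLocalRing.maximalIdeal ℤ_[p]) ^ i • ⊤ :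
        Submodule ℤ_[p] (Module.End ℤ_[p] Λ ⧸ W)) := by
      rw [Submodule.mem_iInf]
      intro i
      obtain ⟨x, hx, -⟩ := hab i
      obtain ⟨y, hy⟩ := Push_exists_eq_smul i _ hx
      have h1 : W.mkQ a = (p : ℤ_[p]) ^ i • W.mkQ y := by
        rw [← map_smul, ← hy, map_sub, eq_comm, sub_eq_self, Submodule.mkQ_apply,
          Submodule.Quotient.mk_eq_zero]
        exact ⟨1 ⊗ₜ x, by simp⟩
      rw [h1]
      exact Submodule.smul_mem_smul (Ideal.pow_mem_pow hpm i) Submodule.mem_top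
    rw [Ideal.iInf_pow_smul_eq_bot_of_isLocalRing _ (IsLocalRing.maximalIdeal.isMaximal _).ne_top,
      Submodule.mem_bot, Submodule.mkQ_apply, Submodule.Quotient.mk_eq_zero] at hmem
    exact hmem
  obtain ⟨c, hc⟩ := haW
  have hc' : thetaHat ΘΛ c = a := hc
  refine ⟨c, hc', ?_⟩
  have key : ∀ n : ℕ, piHat j π c - b ∈ IsLocalRing.maximalIdeal T ^ n := by
    intro n
    obtain ⟨x, hx1, hx2⟩ := hab (n + c0)
    have h1 : DivBy (n + c0) (thetaHat ΘΛ (c - 1 ⊗ₜ x)) := by
      rw [map_sub, thetaHat_tmul, one_smul, hc']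
      exact hx1
    obtain ⟨b', hb'⟩ := hc0 _ n h1
    have h2 : piHat j π c - π x = (p : T) ^ n * piHat j π b' := by
      have := congrArg (piHat j π) hb'
      rw [map_sub, piHat_tmul, map_one, one_mul, Push_piHat_smul, map_pow, map_natCast] at this
      exact this
    have h3 : piHat j π c - b = (p : T) ^ n * piHat j π b' - (b - π x) := by
      rw [← h2]; ring
    rw [h3]
    refine Ideal.sub_mem _ (Ideal.mul_mem_right _ _ (Ideal.pow_mem_pow hpT n)) ?_
    exact Ideal.pow_le_pow_right (Nat.le_add_right n c0) hx2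
  have hbot := Ideal.iInf_pow_eq_bot_of_isLocalRing (IsLocalRing.maximalIdeal T)
    (IsLocalRing.maximalIdeal.isMaximal T).ne_top
  have hmem : piHat j π c - b ∈ (⨅ i : ℕ, IsLocalRing.maximalIdeal T ^ i : Ideal T) := by
    rw [Submodule.mem_iInf]
    exact key
  rw [hbot, Ideal.mem_bot, sub_eq_zero] at hmem
  exact hmem

end Fermat.Agent.ORD.TR
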