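import Fermat.Agent.ORD.TR.Interface
import Fermat.Agent.S13.Minkowski

/-!
# ORD / TR-RAM : the cyclotomic character mod `p` is ramified at `p` (`p` odd)   (helper86)

`H = ker (ε mod p)` is open and normal and contains the inertia groups at all `q ≠ p`.  If it
contained `I_P` it would be everything (Minkowski), but complex conjugation has `ε = -1`.
-/

set_option autoImplicit false

namespace Fermat.Agent.ORD.TR

open Fermat.Agent.ES.RepGalois

local notation "Γℚ" => (AlgebraicClosure ℚ ≃ₐ[ℚ] AlgebraicClosure ℚ)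

/-- the kernel of `ε mod p`. -/
noncomputable def Ram_H (p : ℕ) [Fact p.Prime] : Subgroup Γℚ :=
  ((Units.map ((PadicInt.toZModPow 1 : ℤ_[p] →+* ZMod (p ^ 1)) : ℤ_[p] →* ZMod (p ^ 1))).comp
    (eps p)).ker

theorem Ram_mem_H (p : ℕ) [Fact p.Prime] (g : Γℚ) :
    g ∈ Ram_H p ↔ PadicInt.toZModPow 1 ((eps p g : ℤ_[p]ˣ) : ℤ_[p]) = 1 := by
  rw [Ram_H, MonoidHom.mem_ker, Units.ext_iff]
  rfl

instance Ram_H_normal (p : ℕ) [Fact p.Prime] : (Ram_H p).Normal := MonoidHom.normal_ker _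

theorem Ram_H_isOpen (p : ℕ) [Fact p.Prime] : IsOpen (Ram_H p : Set Γℚ) := by
  obtain ⟨L, hL, h⟩ := eps_level p 1
  refine Subgroup.isOpen_mono (H₁ := L.fixingSubgroup) ?_
    (IntermediateField.fixingSubgroup_isOpen L)
  intro σ hσ
  rw [Ram_mem_H, h σ 1 fun x hx => (IntermediateField.mem_fixingSubgroup_iff L σ).mp hσ x hx]
  simp

/-- **TR-RAM.** -/
theorem stmt_Ram : Stmt_Ram := by
  intro p _ hp2 P hP
  have hp : p.Prime := Fact.out
  have hex : ∃ s ∈ P.inertiaSubgroupIn ℚ, s ∉ Ram_H p := by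
    by_contra hcon
    push Not at hcon
    have htop : Ram_H p = ⊤ := by
      refine Fermat.Agent.S13.Mink.eq_top_of_exists_inertia_le (Ram_H p) (Ram_H_isOpen p)
        fun q hq => ?_
      by_cases hqp : q = p
      · subst hqp
        exact ⟨P, hP, hcon⟩
      · obtain ⟨V, hV⟩ := Fermat.Agent.S54.Frob95.exists_valuationSubring q hq
        refine ⟨V, hV, fun σ hσ => ?_⟩
        rw [Ram_mem_H, eps_inertia p hq hqp hV hσ]
        simp
    obtain ⟨c, -, -, -, hc⟩ := exists_conj_eps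
    have h1 : c ∈ Ram_H p := htop ▸ Subgroup.mem_top c
    rw [Ram_mem_H, hc p] at h1
    have h2 : ((2 : ℕ) : ZMod (p ^ 1)) = 0 := by
      have h3 : (-1 : ZMod (p ^ 1)) = 1 := by simpa using h1
      have h4 : (1 : ZMod (p ^ 1)) + 1 = 0 := by
        nth_rewrite 1 [← h3]
        ring
      push_cast
      rw [← h4]
      norm_num
    rw [ZMod.natCast_eq_zero_iff, pow_one] at h2
    exact hp2 ((Nat.prime_dvd_prime_iff_eq hp Nat.prime_two).mp h2)
  obtain ⟨s, hs, hsH⟩ := hex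
  refine ⟨s, hs, ?_⟩
  by_contra hnu
  apply hsH
  have h1 : ((eps p s : ℤ_[p]ˣ) : ℤ_[p]) - 1 ∈ IsLocalRing.maximalIdeal ℤ_[p] :=
    (IsLocalRing.mem_maximalIdeal _).2 hnu
  rw [PadicInt.maximalIdeal_eq_span_p, ← pow_one (p : ℤ_[p]), ← PadicInt.ker_toZModPow,
    RingHom.mem_ker, map_sub, map_one, sub_eq_zero] at h1
  rw [Ram_mem_H]
  exact h1

end Fermat.Agent.ORD.TR
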