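import Fermat.Agent.ORD.TR.Interface
import Fermat.Agent.ES.S31.Faithful

/-!
# ORD / TR : (TR-INJ)  `ℤ_p ⊗ X` is finite over `ℤ_p`, faithful on `Λ` and quasi-saturated
-/

set_option autoImplicit false

namespace Fermat.Agent.ORD.TR

open TensorProduct
open Fermat.Agent.ES.S31

section ThetaInj

variable {p : ℕ} [Fact p.Prime] {X : Type} [CommRing X]

/-- density of `X` in `ℤ_p ⊗ X`. -/
theorem ThetaInj_dense (m : ℕ) (b : Rp p X) :
    ∃ (y : X) (b' : Rp p X), b = (1 : ℤ_[p]) ⊗ₜ[ℤ] y + (p : ℤ_[p]) ^ m • b' := by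
  induction b using TensorProduct.induction_on with
  | zero => exact ⟨0, 0, by simp⟩
  | tmul a x =>
    obtain ⟨a', ha'⟩ := Ideal.mem_span_singleton'.1 (PadicInt.appr_spec m a)
    refine ⟨(a.appr m : ℤ) • x, a' ⊗ₜ x, ?_⟩
    have ha : a = ((a.appr m : ℤ) : ℤ_[p]) + (p : ℤ_[p]) ^ m * a' := by
      rw [mul_comm, ha']; push_cast; ring
    conv_lhs => rw [ha]
    rw [TensorProduct.add_tmul, TensorProduct.tmul_smul, TensorProduct.smul_tmul',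
      TensorProduct.smul_tmul', zsmul_eq_mul, mul_one, smul_eq_mul]
  | add b₁ b₂ h₁ h₂ =>
    obtain ⟨y₁, b₁', h₁⟩ := h₁
    obtain ⟨y₂, b₂', h₂⟩ := h₂
    refine ⟨y₁ + y₂, b₁' + b₂', ?_⟩
    rw [h₁, h₂, TensorProduct.tmul_add, smul_add]
    abel

theorem ThetaInj_isUnit {e : ℤ} (he : ¬ (p : ℤ) ∣ e) : IsUnit (e : ℤ_[p]) := by
  rw [PadicInt.isUnit_iff]
  refine le_antisymm (PadicInt.norm_le_one _) (not_lt.1 fun h => he ?_)
  exact (PadicInt.norm_int_lt_one_iff_dvd e).1 h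

end ThetaInj

/-- **(TR-INJ)** -/
theorem stmt_ThetaInj : Stmt_ThetaInj := by
  intro p _ X _ _ H Λ _ _ _ _ _ ι hι Θ hΘ ΘΛ hΘΛ
  have hfinX : Module.Finite ℤ X :=
    Module.Finite.of_injective (Θ : X →+ Module.End ℤ H).toIntLinearMap hΘ
  have hfin : Module.Finite ℤ_[p] (Rp p X) := inferInstance
  obtain ⟨c, e, he, hce⟩ := exists_quasi_faithful hι Θ hΘ ΘΛ hΘΛ
  have hsat : ∀ (b : Rp p X) (n : ℕ), DivBy (n + c) (thetaHat ΘΛ b) →
      ∃ b' : Rp p X, b = (p : ℤ_[p]) ^ n • b' := by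
    intro b n hb
    obtain ⟨y, b', hyb⟩ := ThetaInj_dense (n + c) b
    have h1 : ∀ v : Λ, ∃ w : Λ, ΘΛ y v = (p : ℤ_[p]) ^ (n + c) • w := by
      intro v
      obtain ⟨w, hw⟩ := hb v
      refine ⟨w - thetaHat ΘΛ b' v, ?_⟩
      rw [hyb, map_add, map_smul, thetaHat_tmul, one_smul, LinearMap.add_apply,
        LinearMap.smul_apply] at hw
      rw [smul_sub, ← hw]
      abel
    obtain ⟨y', hy'⟩ := hce y n h1
    obtain ⟨u, hu⟩ := ThetaInj_isUnit (p := p) he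
    refine ⟨((u⁻¹ : ℤ_[p]ˣ) : ℤ_[p]) • ((1 : ℤ_[p]) ⊗ₜ[ℤ] y' + ((p : ℤ_[p]) ^ c * (e : ℤ_[p])) • b'), ?_⟩
    have h2 : (e : ℤ_[p]) • b =
        (p : ℤ_[p]) ^ n • ((1 : ℤ_[p]) ⊗ₜ[ℤ] y' + ((p : ℤ_[p]) ^ c * (e : ℤ_[p])) • b') := by
      have h3 : (e : ℤ_[p]) • ((1 : ℤ_[p]) ⊗ₜ[ℤ] y) = (p : ℤ_[p]) ^ n • ((1 : ℤ_[p]) ⊗ₜ[ℤ] y') := by
        have h4 : (1 : ℤ_[p]) ⊗ₜ[ℤ] (e • y) = (1 : ℤ_[p]) ⊗ₜ[ℤ] (((p : ℤ) ^ n) • y') := by rw [hy']
        rw [TensorProduct.tmul_smul, TensorProduct.tmul_smul, TensorProduct.smul_tmul',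
          TensorProduct.smul_tmul', zsmul_eq_mul, zsmul_eq_mul, mul_one, mul_one] at h4
        rw [TensorProduct.smul_tmul', TensorProduct.smul_tmul', smul_eq_mul, smul_eq_mul, mul_one,
          mul_one, h4]
        push_cast
        rfl
      rw [hyb, smul_add, h3, smul_add, smul_smul, smul_smul, pow_add]
      congr 2
      ring
    rw [smul_comm, ← h2, smul_smul, ← hu, Units.inv_mul, one_smul]
  refine ⟨hfin, ?_, c, hsat⟩
  rw [injective_iff_map_eq_zero]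
  intro b hb
  have hmem : b ∈ (⨅ i : ℕ, (Ideal.span {(p : ℤ_[p])}) ^ i • (⊤ : Submodule ℤ_[p] (Rp p X))) := by
    rw [Submodule.mem_iInf]
    intro n
    obtain ⟨b', hb'⟩ := hsat b n (by
      rw [hb]; intro v; exact ⟨0, by simp⟩)
    rw [hb', Ideal.span_singleton_pow]
    exact Submodule.smul_mem_smul (Ideal.mem_span_singleton_self _) Submodule.mem_top
  rw [Ideal.iInf_pow_smul_eq_bot_of_isLocalRing] at hmem
  · exact (Submodule.mem_bot _).1 hmem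
  · rw [← PadicInt.maximalIdeal_eq_span_p]
    exact Ideal.IsPrime.ne_top'

end Fermat.Agent.ORD.TR

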