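import Fermat.Agent.ORD.TR.CoreV
import Fermat.Agent.ORD.TR.ThetaInj
import Fermat.Agent.ORD.TR.Push
import Fermat.Agent.ORD.TR.Approx
import Fermat.Agent.ORD.TR.Ram

/-!
# ORD / TR : assembly.  `S33` from `Stmt_FD` and `Stmt_ESOrd`.
-/

set_option autoImplicit false

namespace Fermat.Agent.ORD.TR

open TensorProduct
open Fermat.Agent.ES.Rep Fermat.Agent.ES.RepGalois Fermat.Agent.ES.S31

local notation "Γℚ" => (AlgebraicClosure ℚ ≃ₐ[ℚ] AlgebraicClosure ℚ)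

section Aux

variable {p : ℕ} [Fact p.Prime] {X : Type} [CommRing X] {Λ : Type} [AddCommGroup Λ]
  [Module ℤ_[p] Λ]

theorem thetaHat_comm (ΘΛ : X →+* Module.End ℤ_[p] Λ) (f : Module.End ℤ_[p] Λ)
    (hf : ∀ x, f * ΘΛ x = ΘΛ x * f) (r : Rp p X) : f * thetaHat ΘΛ r = thetaHat ΘΛ r * f := by
  induction r using TensorProduct.induction_on with
  | zero => simp
  | tmul a x => rw [thetaHat_tmul, mul_smul_comm, smul_mul_assoc, hf]
  | add x y hx hy => rw [map_add, mul_add, add_mul, hx, hy]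

theorem thetaHat_mem (ΘΛ : X →+* Module.End ℤ_[p] Λ) (Z : Submodule ℤ_[p] Λ)
    (hZ : ∀ x, ∀ z ∈ Z, ΘΛ x z ∈ Z) (r : Rp p X) : ∀ z ∈ Z, thetaHat ΘΛ r z ∈ Z := by
  induction r using TensorProduct.induction_on with
  | zero => intro z _; simp
  | tmul a x =>
    intro z hz
    rw [thetaHat_tmul, LinearMap.smul_apply]
    exact Z.smul_mem _ (hZ x z hz)
  | add x y hx hy =>
    intro z hz
    rw [map_add, LinearMap.add_apply]
    exact Z.add_mem (hx z hz) (hy z hz)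

end Aux

variable {p : ℕ} {N : ℕ} [NeZero N] {S : Finset ℕ}
  {𝒪 : Type} [CommRing 𝒪] [IsDomain 𝒪] [IsDiscreteValuationRing 𝒪]
  [IsAdicComplete (IsLocalRing.maximalIdeal 𝒪) 𝒪]
  {θ : CuspForm.heckeAlgebra N 2 (↑S : Set ℕ) →+* IsLocalRing.ResidueField 𝒪}
  {T : Type} [CommRing T] [IsLocalRing T] [IsNoetherianRing T]
  [IsAdicComplete (IsLocalRing.maximalIdeal T) T] [Algebra 𝒪 T] [IsLocalHom (algebraMap 𝒪 T)]
  [Module.Finite 𝒪 T] [Module.Free 𝒪 T]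

/-- `S33` from Frobenius density and the Eichler--Shimura module with the ordinary clause. -/
theorem S33_of (hFD : FD.Stmt_FD) (hES : Stmt_ESOrd)
    (hp : p.Prime) (hp2 : p ≠ 2) (hp𝒪 : (p : 𝒪) ∈ IsLocalRing.maximalIdeal 𝒪)
    (hN : p ∣ N ∧ ¬ p ^ 2 ∣ N)
    (hNS : ∀ q : ℕ, q.Prime → q ∣ N → q ∈ S)
    (H : CuspForm.HeckeGaloisRepDatum N (↑S : Set ℕ) 𝒪 θ T)
    (hres : (GaloisRepAdic.ofResidualGaloisRep H.ρ.residual).IsOrdinaryAt p) :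
    H.ρ.IsOrdinaryAt p := by
  have : Fact p.Prime := ⟨hp⟩
  obtain ⟨E, hE⟩ := hES p N S hp2 hN.1 hN.2 hNS
  have hpT : (p : T) ∈ IsLocalRing.maximalIdeal T := by
    have := map_nonunit (algebraMap 𝒪 T) _ hp𝒪
    rwa [map_natCast] at this
  have hpS : p ∈ S := hNS p hp hN.1
  obtain ⟨hfin, hinj, -⟩ := stmt_ThetaInj p (CuspForm.heckeAlgebra N 2 (↑S : Set ℕ)) E.H E.Λ E.ι
    E.isBaseChange E.Θ E.Θ_injective E.ΘΛ E.ΘΛ_ι
  let j : ℤ_[p] →+* T := padicToComplete p (IsLocalRing.maximalIdeal T) hpT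
  have hpush := stmt_Push stmt_ThetaInj p (CuspForm.heckeAlgebra N 2 (↑S : Set ℕ)) E.H E.Λ E.ι
    E.isBaseChange E.Θ E.Θ_injective E.ΘΛ E.ΘΛ_ι T j H.π hpT
  have happ := stmt_Approx hFD p N S 𝒪 θ T E hpT hpS hNS H
  have ht : ∀ g : Γℚ, ∃ c : Rp p (CuspForm.heckeAlgebra N 2 (↑S : Set ℕ)),
      thetaHat E.ΘΛ c = tauE E.ρ (eps p) g ∧
      piHat j H.π c = LinearMap.trace T H.ρ.V (H.ρ.ρ g) :=
    fun g => hpush _ _ (fun n => (happ g n).1)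
  choose t ht1 ht2 using ht
  have hd : ∀ g : Γℚ, ∃ c : Rp p (CuspForm.heckeAlgebra N 2 (↑S : Set ℕ)),
      thetaHat E.ΘΛ c = ((eps p g : ℤ_[p]ˣ) : ℤ_[p]) • (1 : Module.End ℤ_[p] E.Λ) ∧
      piHat j H.π c = LinearMap.det (H.ρ.ρ g) :=
    fun g => hpush _ _ (fun n => (happ g n).2)
  let εR : Γℚ →* (Rp p (CuspForm.heckeAlgebra N 2 (↑S : Set ℕ)))ˣ :=
    (Units.map (algebraMap ℤ_[p] (Rp p (CuspForm.heckeAlgebra N 2 (↑S : Set ℕ)))).toMonoidHom).comp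
      (eps p)
  have hεR : ∀ g, ((εR g : (Rp p (CuspForm.heckeAlgebra N 2 (↑S : Set ℕ)))ˣ) :
      Rp p (CuspForm.heckeAlgebra N 2 (↑S : Set ℕ))) =
      algebraMap ℤ_[p] _ ((eps p g : ℤ_[p]ˣ) : ℤ_[p]) := fun g => rfl
  have hεΘ : ∀ g, thetaHat E.ΘΛ (εR g : Rp p (CuspForm.heckeAlgebra N 2 (↑S : Set ℕ)))
      = ((eps p g : ℤ_[p]ˣ) : ℤ_[p]) • (1 : Module.End ℤ_[p] E.Λ) := by
    intro g
    rw [hεR, AlgHom.commutes, Algebra.algebraMap_eq_smul_one]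
  have hεPi : ∀ g, piHat j H.π (εR g : Rp p (CuspForm.heckeAlgebra N 2 (↑S : Set ℕ)))
      = LinearMap.det (H.ρ.ρ g) := by
    intro g
    obtain ⟨c, hc1, hc2⟩ := hd g
    have : c = εR g := hinj (hc1.trans (hεΘ g).symm)
    rw [← this, hc2]
  let W : CHRep εR t (Module.End ℤ_[p] E.Λ) :=
    { φ := (thetaHat E.ΘΛ).toRingHom
      α := E.ρ
      comm := fun r g => (thetaHat_comm E.ΘΛ (E.ρ g) (fun x => E.comm g x) r).symm
      ch := fun g => by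
        show E.ρ g + thetaHat E.ΘΛ (εR g : Rp p (CuspForm.heckeAlgebra N 2 (↑S : Set ℕ)))
          * E.ρ g⁻¹ = thetaHat E.ΘΛ (t g)
        rw [hεΘ, ht1, smul_mul_assoc, one_mul]
        rfl }
  have hfree : Module.Free ℤ_[p] E.Λ := Module.Free.of_equiv E.isBaseChange.equiv
  intro P hP
  have hC : AbsClause W (fun g => ((eps p g : ℤ_[p]ˣ) : ℤ_[p])) (P.inertiaSubgroupIn ℚ : Set Γℚ)
      (augL W (P.inertiaSubgroupIn ℚ : Set Γℚ)) := by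
    intro M hM0 hsat hcomm hL
    obtain ⟨Z, hZM, hZp, hZρ, hZΘ, hcase⟩ := hE P hP M hM0 hsat
      (fun f hf v hv => hcomm f (fun r => thetaHat_comm E.ΘΛ f hf r) v hv) hL
    exact ⟨Z, hZM, hZp, hZρ, fun r => thetaHat_mem E.ΘΛ Z hZΘ r, hcase⟩
  have hram : ∃ s ∈ P.inertiaSubgroupIn ℚ,
      ∃ u' : Rp p (CuspForm.heckeAlgebra N 2 (↑S : Set ℕ)),
        ((εR s : Rp p (CuspForm.heckeAlgebra N 2 (↑S : Set ℕ))) - 1) * u' = 1 := by
    obtain ⟨s, hs, hu⟩ := stmt_Ram p hp2 P hP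
    obtain ⟨u, hu⟩ := hu.exists_right_inv
    refine ⟨s, hs, algebraMap ℤ_[p] _ u, ?_⟩
    rw [hεR, ← map_one (algebraMap ℤ_[p] (Rp p (CuspForm.heckeAlgebra N 2 (↑S : Set ℕ)))),
      ← map_sub, ← map_mul, hu]
  exact ord_of_data W hinj _ hεΘ hpT H.ρ H.residual_absIrr hres (piHat j H.π) hεPi ht2 P hP hC hram

end Fermat.Agent.ORD.TR
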