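import Mathlib

/-!
# ORD / TR : formal calculus for Cayley--Hamilton representations

`R` a commutative ring, `G` a group, `ε : G →* Rˣ` ("determinant"), `t : G → R` ("trace").
A `CHRep ε t E` is a "representation of `(R, G)` in the ring `E`" with
`α g + ε g • α g⁻¹ = t g`.   Formal `R`-linear combinations of group elements are lists
`Fm R G = List (R × G)`; they can be evaluated in every `CHRep`, and they carry the formal
involution `st` (`g ↦ ε g • g⁻¹`) and the formal trace `tr`.
-/

set_option autoImplicit false

namespace Fermat.Agent.ORD.TR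

variable {R G E : Type*} [CommRing R] [Group G] [Ring E]

/-- formal `R`-linear combinations of elements of `G`. -/
abbrev Fm (R G : Type*) := List (R × G)

namespace Fm

/-- the formal involution `g ↦ ε g • g⁻¹`. -/
def st (ε : G →* Rˣ) (x : Fm R G) : Fm R G := x.map fun a => (a.1 * (ε a.2 : R), a.2⁻¹)

/-- the formal product. -/
def mul (x y : Fm R G) : Fm R G := x.flatMap fun a => y.map fun b => (a.1 * b.1, a.2 * b.2)

/-- the formal trace. -/
def tr (t : G → R) (x : Fm R G) : R := (x.map fun a => a.1 * t a.2).sum

/-- scalar multiplication. -/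
def smul (r : R) (x : Fm R G) : Fm R G := x.map fun a => (r * a.1, a.2)

/-- a group element. -/
def of (g : G) : Fm R G := [(1, g)]

/-- `s - 1`. -/
def Nf (s : G) : Fm R G := [(1, s), (-1, 1)]

end Fm

/-- A Cayley--Hamilton representation of `(R, G, ε, t)` in the ring `E`. -/
structure CHRep (ε : G →* Rˣ) (t : G → R) (E : Type*) [Ring E] where
  /-- the scalars -/
  φ : R →+* E
  /-- the group action -/
  α : G →* E
  comm : ∀ r g, φ r * α g = α g * φ r
  ch : ∀ g, α g + φ (ε g : R) * α g⁻¹ = φ (t g)

variable {ε : G →* Rˣ} {t : G → R}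

/-- evaluation of a formal element. -/
def CHRep.ev (W : CHRep ε t E) (x : Fm R G) : E := (x.map fun a => W.φ a.1 * W.α a.2).sum

end Fermat.Agent.ORD.TR
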