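import Mathlib
import Fermat.Prelude.Def_CuspForm_HeckeGaloisRepDatum
import Fermat.Prelude.Def_GaloisRep_LocalConditions
import Fermat.Agent.FD.Interface
import Fermat.Agent.ES.RepInterface
import Fermat.Agent.ES.RepGalois
import Fermat.Agent.ES.RepS30
import Fermat.Agent.ES.S31.Sides
import Fermat.Agent.ORD.TR.Formal

/-!
# ORD / TR : interface  (owner: helper11)

`S33` is reduced to `Stmt_ESOrd` : an Eichler--Shimura module of level `N` (`p ‖ N`) satisfying the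
"ordinary clause" `OrdClause`.  No reducedness of the Hecke algebra is used.

Every package proves `theorem stmt_xxx : Stmt_xxx` in its own NEW file importing this one.
-/

set_option autoImplicit false

namespace Fermat.Agent.ORD.TR

open TensorProduct
open Fermat.Agent.ES.Rep Fermat.Agent.ES.RepGalois Fermat.Agent.ES.S31

local notation "Γℚ" => (AlgebraicClosure ℚ ≃ₐ[ℚ] AlgebraicClosure ℚ)

/-! ### the contract with the geometry -/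

section Clause

variable {p : ℕ} [Fact p.Prime] {N : ℕ} [NeZero N] {S : Set ℕ}

/-- `I_aug Λ`, the span of the `(s - 1) w`, `s ∈ I_P`. -/
noncomputable def augI (E : ESModule p N S) (P : ValuationSubring (AlgebraicClosure ℚ)) :
    Submodule ℤ_[p] E.Λ :=
  Submodule.span ℤ_[p] {x | ∃ s ∈ P.inertiaSubgroupIn ℚ, ∃ w : E.Λ, x = E.ρ s w - w}

/-- `p Λ`. -/
noncomputable def pTop (E : ESModule p N S) : Submodule ℤ_[p] E.Λ :=
  (Ideal.span {(p : ℤ_[p])}) • (⊤ : Submodule ℤ_[p] E.Λ)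

/-- **The ordinary clause.** -/
def OrdClause (E : ESModule p N S) : Prop :=
  ∀ P : ValuationSubring (AlgebraicClosure ℚ), P.LiesOverPrime p →
  ∀ M : Submodule ℤ_[p] E.Λ, M ≠ ⊥ →
    (∀ v : E.Λ, (p : ℤ_[p]) • v ∈ M → v ∈ M) →
    (∀ f : Module.End ℤ_[p] E.Λ, (∀ x, f * E.ΘΛ x = E.ΘΛ x * f) → ∀ v ∈ M, f v ∈ M) →
    (∀ v ∈ M, ∃ n : ℕ, (p : ℤ_[p]) ^ n • v ∈ augI E P) →
    ∃ Z : Submodule ℤ_[p] E.Λ, Z ≤ M ∧ ¬ Z ≤ pTop E ∧
      (∀ (g : Γℚ), ∀ z ∈ Z, E.ρ g z ∈ Z) ∧ (∀ x, ∀ z ∈ Z, E.ΘΛ x z ∈ Z) ∧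
      ((∀ z ∈ Z, ∀ s ∈ P.inertiaSubgroupIn ℚ,
          E.ρ s z - ((eps p s : ℤ_[p]ˣ) : ℤ_[p]) • z ∈ pTop E) ∨
       (∀ z ∈ Z, (∀ s ∈ P.inertiaSubgroupIn ℚ,
          E.ρ s z - ((eps p s : ℤ_[p]ˣ) : ℤ_[p]) • z ∈ pTop E) → z ∈ pTop E))

end Clause

/-- What the geometric part of ORD has to prove. -/
def Stmt_ESOrd : Prop :=
  ∀ (p : ℕ) [Fact p.Prime] (N : ℕ) [NeZero N] (S : Finset ℕ), p ≠ 2 → p ∣ N → ¬ p ^ 2 ∣ N →
    (∀ q : ℕ, q.Prime → q ∣ N → q ∈ S) →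
    ∃ E : ESModule p N (↑S : Set ℕ), OrdClause E

/-! ### the `p`-adic Hecke algebra -/

section Hecke

variable {p : ℕ} [Fact p.Prime]

/-- `ℤ_p ⊗ X`. -/
abbrev Rp (p : ℕ) [Fact p.Prime] (X : Type) [CommRing X] : Type := ℤ_[p] ⊗[ℤ] X

variable {X : Type} [CommRing X] {Λ : Type} [AddCommGroup Λ] [Module ℤ_[p] Λ]

/-- the action of `ℤ_p ⊗ X` on `Λ`. -/
noncomputable def thetaHat (ΘΛ : X →+* Module.End ℤ_[p] Λ) :
    Rp p X →ₐ[ℤ_[p]] Module.End ℤ_[p] Λ :=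
  Algebra.TensorProduct.lift (Algebra.ofId ℤ_[p] (Module.End ℤ_[p] Λ)) ΘΛ.toIntAlgHom
    (fun a b => show Commute (algebraMap ℤ_[p] (Module.End ℤ_[p] Λ) a) (ΘΛ b) from
      Algebra.commutes a (ΘΛ b))

@[simp] theorem thetaHat_tmul (ΘΛ : X →+* Module.End ℤ_[p] Λ) (a : ℤ_[p]) (x : X) :
    thetaHat ΘΛ (a ⊗ₜ x) = a • ΘΛ x := by
  have h := Algebra.TensorProduct.lift_tmul (Algebra.ofId ℤ_[p] (Module.End ℤ_[p] Λ))
    ΘΛ.toIntAlgHom (fun a b => show Commute (algebraMap ℤ_[p] (Module.End ℤ_[p] Λ) a) (ΘΛ b) from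
      Algebra.commutes a (ΘΛ b)) a x
  rw [thetaHat, h, Algebra.ofId_apply, Algebra.algebraMap_eq_smul_one, smul_mul_assoc, one_mul]
  rfl

variable {T : Type} [CommRing T]

/-- `ℤ_p ⊗ X → T`. -/
noncomputable def piHat (j : ℤ_[p] →+* T) (π : X →+* T) : Rp p X →+* T :=
  (Algebra.TensorProduct.lift j.toIntAlgHom π.toIntAlgHom (fun _ _ => Commute.all _ _)).toRingHom

@[simp] theorem piHat_tmul (j : ℤ_[p] →+* T) (π : X →+* T) (a : ℤ_[p]) (x : X) :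
    piHat j π (a ⊗ₜ x) = j a * π x := by
  simp [piHat]

end Hecke

/-! ### packages -/

/-- (TR-INJ) `ℤ_p ⊗ X` is finite over `ℤ_p`, acts faithfully on `Λ`, and is quasi-saturated in
`End Λ`. -/
def Stmt_ThetaInj : Prop :=
  ∀ (p : ℕ) [Fact p.Prime] (X : Type) [CommRing X] [IsAddTorsionFree X]
    (H Λ : Type) [AddCommGroup H] [Module.Free ℤ H] [Module.Finite ℤ H]
    [AddCommGroup Λ] [Module ℤ_[p] Λ] (ι : H →ₗ[ℤ] Λ), IsBaseChange ℤ_[p] ι →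
    ∀ (Θ : X →+* Module.End ℤ H), Function.Injective Θ →
    ∀ (ΘΛ : X →+* Module.End ℤ_[p] Λ), (∀ x h, ΘΛ x (ι h) = ι (Θ x h)) →
      Module.Finite ℤ_[p] (Rp p X) ∧ Function.Injective (thetaHat ΘΛ) ∧
      ∃ c : ℕ, ∀ (b : Rp p X) (n : ℕ), DivBy (n + c) (thetaHat ΘΛ b) →
        ∃ b' : Rp p X, b = (p : ℤ_[p]) ^ n • b'

/-- (TR-PUSH) the range of `thetaHat` is closed, and limits are compatible with `piHat`. -/
def Stmt_Push : Prop :=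
  ∀ (p : ℕ) [Fact p.Prime] (X : Type) [CommRing X] [IsAddTorsionFree X]
    (H Λ : Type) [AddCommGroup H] [Module.Free ℤ H] [Module.Finite ℤ H]
    [AddCommGroup Λ] [Module ℤ_[p] Λ] (ι : H →ₗ[ℤ] Λ), IsBaseChange ℤ_[p] ι →
    ∀ (Θ : X →+* Module.End ℤ H), Function.Injective Θ →
    ∀ (ΘΛ : X →+* Module.End ℤ_[p] Λ), (∀ x h, ΘΛ x (ι h) = ι (Θ x h)) →
    ∀ (T : Type) [CommRing T] [IsLocalRing T] [IsNoetherianRing T] (j : ℤ_[p] →+* T)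
      (π : X →+* T), (p : T) ∈ IsLocalRing.maximalIdeal T →
    ∀ (a : Module.End ℤ_[p] Λ) (b : T),
      (∀ n : ℕ, ∃ x : X, DivBy n (a - ΘΛ x) ∧ b - π x ∈ IsLocalRing.maximalIdeal T ^ n) →
      ∃ c : Rp p X, thetaHat ΘΛ c = a ∧ piHat j π c = b

/-- (TR-APPROX) Frobenius density: traces and determinants are limits of Hecke operators,
simultaneously on `Λ` and in `T`. -/
def Stmt_Approx : Prop :=
  FD.Stmt_FD →
  ∀ (p : ℕ) [Fact p.Prime] (N : ℕ) [NeZero N] (S : Finset ℕ)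
    (𝒪 : Type) [CommRing 𝒪] [IsDomain 𝒪] [IsDiscreteValuationRing 𝒪]
    [IsAdicComplete (IsLocalRing.maximalIdeal 𝒪) 𝒪]
    (θ : CuspForm.heckeAlgebra N 2 (↑S : Set ℕ) →+* IsLocalRing.ResidueField 𝒪)
    (T : Type) [CommRing T] [IsLocalRing T] [IsNoetherianRing T]
    [IsAdicComplete (IsLocalRing.maximalIdeal T) T] [Algebra 𝒪 T] [IsLocalHom (algebraMap 𝒪 T)]
    [Module.Finite 𝒪 T] [Module.Free 𝒪 T]
    (E : ESModule p N (↑S : Set ℕ)), (p : T) ∈ IsLocalRing.maximalIdeal T → p ∈ S →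
    (∀ q : ℕ, q.Prime → q ∣ N → q ∈ S) →
    ∀ (H : CuspForm.HeckeGaloisRepDatum N (↑S : Set ℕ) 𝒪 θ T) (g : Γℚ) (n : ℕ),
      (∃ x : CuspForm.heckeAlgebra N 2 (↑S : Set ℕ),
        DivBy n (tauE E.ρ (eps p) g - E.ΘΛ x) ∧
        LinearMap.trace T H.ρ.V (H.ρ.ρ g) - H.π x ∈ IsLocalRing.maximalIdeal T ^ n) ∧
      (∃ x : CuspForm.heckeAlgebra N 2 (↑S : Set ℕ),
        DivBy n (((eps p g : ℤ_[p]ˣ) : ℤ_[p]) • (1 : Module.End ℤ_[p] E.Λ) - E.ΘΛ x) ∧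
        LinearMap.det (H.ρ.ρ g) - H.π x ∈ IsLocalRing.maximalIdeal T ^ n)

/-- (TR-IDEM) the idempotent of a finite `ℤ_p`-algebra at the maximal ideal `Pi⁻¹(𝔪_T)`, and the
socle statement. -/
def Stmt_Idem : Prop :=
  ∀ (p : ℕ) [Fact p.Prime] (R : Type) [CommRing R] [Algebra ℤ_[p] R] [Module.Finite ℤ_[p] R]
    (T : Type) [CommRing T] [IsLocalRing T] (Pi : R →+* T),
    (p : T) ∈ IsLocalRing.maximalIdeal T →
    ∃ e : R, e * e = e ∧ Pi e = 1 ∧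
      (∀ r : R, IsUnit (Pi r) → ∃ r' : R, r * r' * e = e) ∧
      (∀ (W : Type) [AddCommGroup W] [Module R W], Nontrivial W → (∀ w : W, e • w = w) →
        (∀ w : W, (p : R) • w = 0) →
        ∃ w : W, w ≠ 0 ∧ ∀ r : R, Pi r ∈ IsLocalRing.maximalIdeal T → r • w = 0)

/-- (TR-CH2) Cayley--Hamilton in rank two, in the form `f + det f • f⁻¹ = tr f`. -/
def Stmt_CH2 : Prop :=
  ∀ (T V : Type) [CommRing T] [AddCommGroup V] [Module T V] [Module.Free T V] [Module.Finite T V],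
    Module.finrank T V = 2 → ∀ f g : Module.End T V, f * g = 1 →
      f + LinearMap.det f • g = LinearMap.trace T V f • (1 : Module.End T V)

/-- (TR-RES) consequences of the ordinarity of the residual representation. -/
def Stmt_ResOrd : Prop :=
  ∀ (A : Type) [CommRing A] [IsLocalRing A] (ρ : GaloisRepAdic A) (p : ℕ)
    (P : ValuationSubring (AlgebraicClosure ℚ)), P.LiesOverPrime p →
    (GaloisRepAdic.ofResidualGaloisRep ρ.residual).IsOrdinaryAt p →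
    (∀ s ∈ P.inertiaSubgroupIn ℚ,
      LinearMap.trace A ρ.V (ρ.ρ s) - 1 - LinearMap.det (ρ.ρ s) ∈ IsLocalRing.maximalIdeal A) ∧
    (∀ s ∈ P.inertiaSubgroupIn ℚ, ∀ t ∈ P.inertiaSubgroupIn ℚ, ∀ Y : Module.End A ρ.V,
      LinearMap.trace A ρ.V ((ρ.ρ t - LinearMap.det (ρ.ρ t) • 1) * (ρ.ρ s - 1) * Y)
        ∈ IsLocalRing.maximalIdeal A)

/-- (TR-H3) primeness of `M₂(k)` + Burnside. -/
def Stmt_H3 : Prop :=
  ∀ (A : Type) [CommRing A] [IsLocalRing A] (ρ : GaloisRepAdic A),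
    ρ.residual.IsAbsolutelyIrreducible →
    ∀ X Y : Module.End A ρ.V, IsUnit (LinearMap.trace A ρ.V X) →
      IsUnit (LinearMap.trace A ρ.V Y) →
      ∃ g h : Γℚ, IsUnit (LinearMap.trace A ρ.V (X * ρ.ρ g * Y * ρ.ρ h))

/-- (TR-TRZ) nondegeneracy of the trace form on `ρ(G)`. -/
def Stmt_TraceZero : Prop :=
  ∀ (A : Type) [CommRing A] [IsLocalRing A] (ρ : GaloisRepAdic A),
    ρ.residual.IsAbsolutelyIrreducible →
    ∀ X : Module.End A ρ.V, (∀ g : Γℚ, LinearMap.trace A ρ.V (X * ρ.ρ g) = 0) → X = 0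

/-- (TR-RAM) the cyclotomic character mod `p` is ramified at `p` (`p` odd). -/
def Stmt_Ram : Prop :=
  ∀ (p : ℕ) [Fact p.Prime], p ≠ 2 →
    ∀ P : ValuationSubring (AlgebraicClosure ℚ), P.LiesOverPrime p →
      ∃ s ∈ P.inertiaSubgroupIn ℚ, IsUnit (((eps p s : ℤ_[p]ˣ) : ℤ_[p]) - 1)

/-- (TR-B) the identity `adj(N_s) N_t = 0` implies ordinarity. -/
def Stmt_OrdOfId : Prop :=
  ∀ (A : Type) [CommRing A] [IsLocalRing A] (ρ : GaloisRepAdic A)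
    (P : ValuationSubring (AlgebraicClosure ℚ)),
    (∃ s ∈ P.inertiaSubgroupIn ℚ, IsUnit (LinearMap.det (ρ.ρ s) - 1)) →
    (∀ s ∈ P.inertiaSubgroupIn ℚ, ∀ t ∈ P.inertiaSubgroupIn ℚ,
      (LinearMap.det (ρ.ρ s) • ρ.ρ s⁻¹ - 1) * (ρ.ρ t - 1) = 0) →
    ∃ L : Submodule A ρ.V,
      (∃ b : Module.Basis (Fin 2) A ρ.V, L = A ∙ b 0) ∧
      (∀ σ ∈ P.decompositionSubgroup ℚ, ∀ v ∈ L, ρ.ρ σ v ∈ L) ∧
      (∀ σ ∈ P.inertiaSubgroupIn ℚ, ∀ v : ρ.V, ρ.ρ σ v - v ∈ L)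

end Fermat.Agent.ORD.TR
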