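import Fermat.Agent.ORD.TR.Calculus

/-!
# ORD / TR : the abstract theorems (involution algebra of a Cayley--Hamilton representation)

* `ker_thm`  : `τ(x y) = 0` for all `y` implies `x = 0`  (Boston--Lenstra--Ribet type lemma);
* `ord_abs`  : hypothesis (H1) implies `τ(N_s* N_t g) = 0`;
* `ord_abs'` : the same from `N_{s'}* N_t = 0`;
* `res_a`, `res_b` : the two residual statements.
-/

set_option autoImplicit false

namespace Fermat.Agent.ORD.TR

variable {R G E : Type*} [CommRing R] [Group G] [Ring E] {ε : G →* Rˣ} {t : G → R}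

/-- the formal idempotent `u' (s' - 1)`. -/
def piF (u' : R) (s' : G) : Fm R G := Fm.smul u' (Fm.Nf s')

/-- `τ(g π* h π)`. -/
def r1 (ε : G →* Rˣ) (t : G → R) (π : Fm R G) (g h : G) : R :=
  Fm.tr t (Fm.mul (Fm.mul (Fm.mul (Fm.of g) (Fm.st ε π)) (Fm.of h)) π)

/-- `t - ε(t)`. -/
def Ef (ε : G →* Rˣ) (s : G) : Fm R G := [(1, s), (-(ε s : R), 1)]

namespace CHRep

variable (W : CHRep ε t E)

@[simp] theorem ev_Ef (s : G) : W.ev (Ef ε s) = W.α s - W.φ (ε s : R) := by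
  simp [Ef, sub_eq_add_neg]

/-- a good formal idempotent. -/
structure Good (π : Fm R G) (g h : G) : Prop where
  add : W.ev π + W.evs π = 1
  PQ : W.ev π * W.evs π = 0
  QP : W.evs π * W.ev π = 0
  unit : ∃ r' : R, W.φ r' * W.φ (r1 ε t π g h) = 1

variable {W}

theorem good_piF {u' : R} {s' : G} (hu : ((ε s' : R) - 1) * u' = 1)
    (hν : W.φ (1 + (ε s' : R) - t s') = 0) {g h : G}
    (hr : ∃ r' : R, W.φ r' * W.φ (r1 ε t (piF u' s') g h) = 1) : W.Good (piF u' s') g h where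
  add := by
    rw [ev_add_evs]
    have h1 : W.φ (Fm.tr t (piF u' s')) = W.φ u' * (W.φ (t s') - 1 - 1) := by
      rw [← ev_add_evs, piF, ev_smul, evs_smul, ev_Nf, evs_Nf, ← mul_add, ← W.ch s']
      congr 1
      abel
    have h2 : W.φ (t s') = 1 + W.φ (ε s' : R) := by
      rw [map_sub, map_add, map_one, sub_eq_zero] at hν
      exact hν.symm
    rw [h1, h2]
    have h3 : (1 + W.φ (ε s' : R) - 1 - 1 : E) = W.φ ((ε s' : R) - 1) := by
      rw [map_sub, map_one]; abel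
    rw [h3, ← map_mul, mul_comm, hu, map_one]
  PQ := by
    rw [piF, ev_smul, evs_smul, ev_Nf, evs_Nf]
    have := W.φ_comm_ev u' (Fm.Nf s')
    rw [ev_Nf] at this
    rw [mul_assoc, ← mul_assoc (W.α s' - 1), ← this, mul_assoc, W.N_mul_Ns, hν]
    simp
  QP := by
    rw [piF, ev_smul, evs_smul, ev_Nf, evs_Nf]
    have := W.φ_comm_evs u' (Fm.Nf s')
    rw [evs_Nf] at this
    rw [mul_assoc, ← mul_assoc (W.φ (ε s' : R) * W.α s'⁻¹ - 1), ← this, mul_assoc, W.Ns_mul_N, hν]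
    simp
  unit := hr

namespace Good

variable {π : Fm R G} {g h : G} (H : W.Good π g h)
include H

theorem PP : W.ev π * W.ev π = W.ev π := by
  have := congrArg (fun z => W.ev π * z) H.add
  simp only [mul_add, H.PQ, add_zero, mul_one] at this
  exact this

theorem QQ : W.evs π * W.evs π = W.evs π := by
  have := congrArg (fun z => W.evs π * z) H.add
  simp only [mul_add, H.QP, zero_add, mul_one] at this
  exact this

theorem Q_eq : W.evs π = 1 - W.ev π := by rw [← H.add]; abel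

theorem sandP (z : Fm R G) :
    W.ev π * W.ev z * W.ev π = W.φ (Fm.tr t (Fm.mul z π)) * W.ev π := by
  have h1 := W.ev_add_evs (Fm.mul z π)
  rw [ev_mul, evs_mul] at h1
  have h2 := congrArg (fun y => W.ev π * y * W.ev π) h1
  simp only [mul_add, add_mul] at h2
  rw [← mul_assoc (W.ev π) (W.evs π), H.PQ, zero_mul, zero_mul, add_zero, ← mul_assoc,
    mul_assoc (W.ev π * W.ev z), H.PP, ← W.φ_comm_ev, mul_assoc (W.φ _), H.PP] at h2
  exact h2

theorem sandQ (z : Fm R G) :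
    W.evs π * W.ev z * W.evs π = W.φ (Fm.tr t (Fm.mul z (Fm.st ε π))) * W.evs π := by
  have h1 := W.ev_add_evs (Fm.mul z (Fm.st ε π))
  rw [ev_mul, evs_mul, evs_st, ev_st] at h1
  have h2 := congrArg (fun y => W.evs π * y * W.evs π) h1
  simp only [mul_add, add_mul] at h2
  rw [← mul_assoc (W.evs π) (W.ev π), H.QP, zero_mul, zero_mul, add_zero, ← mul_assoc,
    mul_assoc (W.evs π * W.ev z), H.QQ, ← W.φ_comm_evs, mul_assoc (W.φ _), H.QQ] at h2
  exact h2

theorem key : W.ev π * W.α g * W.evs π * W.α h * W.ev π = W.φ (r1 ε t π g h) * W.ev π := by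
  have := H.sandP (Fm.mul (Fm.mul (Fm.of g) (Fm.st ε π)) (Fm.of h))
  rw [ev_mul, ev_mul, ev_of, ev_of, ev_st] at this
  rw [r1, ← this]
  simp only [mul_assoc]

theorem cancel {X : E} (hX : W.φ (r1 ε t π g h) * X = 0) : X = 0 := by
  obtain ⟨r', hr'⟩ := H.unit
  have := congrArg (fun y => W.φ r' * y) hX
  simp only [← mul_assoc, hr', one_mul, mul_zero] at this
  exact this

theorem cancel_right {X : E} (hX : X * W.φ (r1 ε t π g h) = 0) : X = 0 := by
  obtain ⟨r', hr'⟩ := H.unit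
  rw [W.φ_comm_φ] at hr'
  have := congrArg (fun y => y * W.φ r') hX
  simp only [mul_assoc, hr', mul_one, zero_mul] at this
  exact this

/-- an element killed on the right by `P α(g) Q` is killed by `P`. -/
theorem mulP_eq_zero {X : E} (hX : X * (W.ev π * W.α g * W.evs π) = 0) : X * W.ev π = 0 := by
  apply H.cancel_right
  rw [mul_assoc, ← W.φ_comm_ev, ← H.key]
  have : X * (W.ev π * W.α g * W.evs π * W.α h * W.ev π)
      = X * (W.ev π * W.α g * W.evs π) * (W.α h * W.ev π) := by simp only [mul_assoc]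
  rw [this, hX, zero_mul]

/-- an element killed on the left by `Q α(h) P` is killed by `P`. -/
theorem Pmul_eq_zero {X : E} (hX : W.evs π * W.α h * W.ev π * X = 0) : W.ev π * X = 0 := by
  apply H.cancel
  rw [← mul_assoc, ← H.key]
  have : W.ev π * W.α g * W.evs π * W.α h * W.ev π * X
      = W.ev π * W.α g * (W.evs π * W.α h * W.ev π * X) := by simp only [mul_assoc]
  rw [this, hX, mul_zero]

theorem split (X : E) : X = W.ev π * X + W.evs π * X := by
  rw [← add_mul, H.add, one_mul]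

theorem split_right (X : E) : X = X * W.ev π + X * W.evs π := by
  rw [← mul_add, H.add, mul_one]

/-- **(KER)** -/
theorem ker_thm (x : Fm R G) (hx : ∀ y : Fm R G, W.φ (Fm.tr t (Fm.mul x y)) = 0) :
    W.ev x = 0 := by
  -- (E) : x y = y* x
  have h0 : ∀ y, W.ev x * W.ev y + W.evs y * W.evs x = 0 := fun y => by
    have := W.ev_add_evs (Fm.mul x y)
    rwa [ev_mul, evs_mul, hx] at this
  have hs : W.evs x = - W.ev x := by
    have := h0 (Fm.of 1)
    simp only [ev_of, evs_of, map_one, inv_one, Units.val_one, mul_one, one_mul] at this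
    exact (neg_eq_of_add_eq_zero_right this).symm
  have hE : ∀ y, W.ev x * W.ev y = W.evs y * W.ev x := fun y => by
    have := h0 y
    rw [hs, mul_neg, add_neg_eq_zero] at this
    exact this
  have hE' : ∀ y, W.ev x * W.evs y = W.ev y * W.ev x := fun y => by
    have := hE (Fm.st ε y)
    rwa [ev_st, evs_st] at this
  -- Q x z Q = 0
  have hQ : ∀ z, W.evs π * (W.ev x * W.ev z) * W.evs π = 0 := fun z => by
    have h1 := hE' (Fm.mul (Fm.st ε z) π)
    rw [evs_mul, evs_st, ev_mul, ev_st] at h1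
    -- x (Q z) = z* P x   -- not needed; use directly:
    have h2 := hE' (Fm.mul π (Fm.st ε z))
    rw [evs_mul, evs_st, ev_mul, ev_st] at h2
    -- x (z Q) = P z* x
    rw [mul_assoc, mul_assoc, h2, ← mul_assoc, ← mul_assoc, H.QP, zero_mul, zero_mul]
  have hQP : W.evs π * W.ev x * W.ev π = 0 := by
    apply H.mulP_eq_zero
    have := hQ (Fm.mul π (Fm.of g))
    rw [ev_mul, ev_of] at this
    rw [← this]
    simp only [mul_assoc]
  have hQQ : W.evs π * W.ev x * W.evs π = 0 := by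
    have := hQ (Fm.of 1)
    simpa using this
  have hQx : W.evs π * W.ev x = 0 := by
    rw [H.split_right (W.evs π * W.ev x), hQP, hQQ, add_zero]
  have hPx : W.ev π * W.ev x = 0 := by
    -- P x = x Q  and  Q (h P x) ... : use Pmul_eq_zero
    apply H.Pmul_eq_zero
    -- Q h P x = Q x (h P)^*
    have h1 := hE' (Fm.mul (Fm.of h) π)
    rw [ev_mul, ev_of] at h1
    rw [mul_assoc, mul_assoc, ← mul_assoc (W.α h), ← h1, ← mul_assoc, hQx, zero_mul]
  rw [H.split (W.ev x), hPx, hQx, add_zero]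

/-- `P ≠ 0` (in a nontrivial ring). -/
theorem P_ne_zero [Nontrivial E] : W.ev π ≠ 0 := by
  intro hP
  have hQ : W.evs π = 1 := by rw [H.Q_eq, hP, sub_zero]
  -- `Q α(h) P α(g) Q = φ(r₂) Q` and `φ r₂ = φ r₁`
  have h1 := H.sandQ (Fm.mul (Fm.mul (Fm.of h) π) (Fm.of g))
  have h2 : W.φ (Fm.tr t (Fm.mul (Fm.mul (Fm.mul (Fm.of h) π) (Fm.of g)) (Fm.st ε π)))
      = W.φ (r1 ε t π g h) := by
    rw [r1]
    have e1 : W.φ (Fm.tr t (Fm.mul (Fm.mul (Fm.mul (Fm.of h) π) (Fm.of g)) (Fm.st ε π)))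
        = W.φ (Fm.tr t (Fm.mul (Fm.mul (Fm.of h) π) (Fm.mul (Fm.of g) (Fm.st ε π)))) :=
      W.φ_tr_congr (by simp only [ev_mul, mul_assoc]) (by simp only [evs_mul, mul_assoc])
    have e2 : W.φ (Fm.tr t (Fm.mul (Fm.mul (Fm.mul (Fm.of g) (Fm.st ε π)) (Fm.of h)) π))
        = W.φ (Fm.tr t (Fm.mul (Fm.mul (Fm.of g) (Fm.st ε π)) (Fm.mul (Fm.of h) π))) :=
      W.φ_tr_congr (by simp only [ev_mul, mul_assoc]) (by simp only [evs_mul, mul_assoc])
    rw [e1, e2, φ_tr_mul_comm]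
  rw [h2, ev_mul, ev_mul, hP, hQ] at h1
  simp only [mul_zero, zero_mul, mul_one] at h1
  obtain ⟨r', hr'⟩ := H.unit
  rw [← h1, mul_zero] at hr'
  exact zero_ne_one hr'

end Good

/-- **(ORD-ABS)**.  `InL x` stands for "the image of `x` lies in `L = I_aug M`". -/
theorem ord_abs (I : Set G) (InL : E → Prop)
    (hadd : ∀ x y, InL x → InL y → InL (x + y))
    (hN : ∀ s ∈ I, ∀ y, InL ((W.α s - 1) * y))
    (H1 : ∀ c : R, InL (W.φ c) → W.φ c = 0)
    {s' : G} (hs' : s' ∈ I) {u' : R} (hu : ((ε s' : R) - 1) * u' = 1) {g h : G}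
    (hr : ∃ r' : R, W.φ r' * W.φ (r1 ε t (piF u' s') g h) = 1) :
    ∀ s ∈ I, ∀ s₂ ∈ I, ∀ g₂ : G,
      W.φ (Fm.tr t (Fm.mul (Fm.mul (Fm.st ε (Fm.Nf s)) (Fm.Nf s₂)) (Fm.of g₂))) = 0 := by
  have hν : ∀ s ∈ I, W.φ (1 + (ε s : R) - t s) = 0 := fun s hs => by
    apply H1
    rw [← W.N_mul_Ns]
    exact hN s hs _
  have H : W.Good (piF u' s') g h := good_piF hu (hν s' hs') hr
  set π := piF u' s' with hπ
  have hP : W.ev π = (W.α s' - 1) * W.φ u' := by
    rw [hπ, piF, ev_smul, φ_comm_ev, ev_Nf]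
  have hInP : ∀ y, InL (W.ev π * y) := fun y => by
    rw [hP, mul_assoc]; exact hN s' hs' _
  -- step 3
  have step3 : ∀ s ∈ I, ∀ z : Fm R G, W.evs π * (W.α s - 1) * W.ev z * W.evs π = 0 := by
    intro s hs z
    have h1 := H.sandQ (Fm.mul (Fm.Nf s) z)
    rw [ev_mul, ev_Nf, ← mul_assoc] at h1
    rw [h1]
    set c := Fm.tr t (Fm.mul (Fm.mul (Fm.Nf s) z) (Fm.st ε π)) with hc
    have hc0 : W.φ c = 0 := by
      apply H1
      rw [H.split_right (W.φ c), φ_comm_ev, ← h1, H.Q_eq]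
      have : (1 - W.ev π) * (W.α s - 1) * W.ev z * (1 - W.ev π)
          = (W.α s - 1) * (W.ev z * (1 - W.ev π))
            + W.ev π * (-((W.α s - 1) * W.ev z * (1 - W.ev π))) := by
        noncomm_ring
      rw [this]
      exact hadd _ _ (hInP _) (hadd _ _ (hN s hs _) (hInP _))
    rw [hc0, zero_mul]
  -- step 4
  have step4 : ∀ s ∈ I, W.evs π * (W.α s - 1) = 0 := by
    intro s hs
    have hQ : W.evs π * (W.α s - 1) * W.evs π = 0 := by
      have := step3 s hs (Fm.of 1)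
      simpa using this
    have hPz : W.evs π * (W.α s - 1) * W.ev π = 0 := by
      apply H.mulP_eq_zero
      have := step3 s hs (Fm.mul π (Fm.of g))
      rw [ev_mul, ev_of] at this
      rw [← this]
      simp only [mul_assoc]
    rw [H.split_right (W.evs π * (W.α s - 1)), hPz, hQ, add_zero]
  -- step 5
  have step5 : ∀ s ∈ I, (W.φ (ε s : R) * W.α s⁻¹ - 1) * W.ev π = 0 := by
    intro s hs
    have h1 := W.ev_add_evs (Fm.mul (Fm.st ε π) (Fm.Nf s))
    rw [ev_mul, evs_mul, ev_st, evs_st, ev_Nf, evs_Nf, step4 s hs, zero_add] at h1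
    rw [h1]
    apply H1
    have h2 : W.φ (Fm.tr t (Fm.mul (Fm.st ε π) (Fm.Nf s))) * W.evs π = 0 := by
      rw [← h1, mul_assoc, H.PQ, mul_zero]
    rw [H.split_right (W.φ _), h2, add_zero, φ_comm_ev]
    exact hInP _
  -- step 6
  have step6 : ∀ s ∈ I, ∀ s₂ ∈ I, (W.φ (ε s : R) * W.α s⁻¹ - 1) * (W.α s₂ - 1) = 0 := by
    intro s hs s₂ hs₂
    rw [H.split (W.α s₂ - 1), mul_add, ← mul_assoc, step5 s hs, zero_mul, step4 s₂ hs₂, mul_zero,
      add_zero]
  intro s hs s₂ hs₂ g₂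
  rw [← ev_add_evs, ev_mul, ev_mul, evs_mul, evs_mul, ev_st, evs_st, ev_Nf, evs_Nf, ev_Nf, evs_Nf,
    step6 s hs s₂ hs₂, step6 s₂ hs₂ s hs]
  simp

/-- **(ORD-ABS')**: the variant starting from `N_{s'}* N_s = 0`. -/
theorem ord_abs' (I : Set G) {s' : G} (hs' : s' ∈ I)
    (hId : ∀ s ∈ I, (W.φ (ε s' : R) * W.α s'⁻¹ - 1) * (W.α s - 1) = 0)
    {u' : R} (hu : ((ε s' : R) - 1) * u' = 1) {g h : G}
    (hr : ∃ r' : R, W.φ r' * W.φ (r1 ε t (piF u' s') g h) = 1) :
    ∀ s ∈ I, ∀ g₂ : G,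
      W.φ (Fm.tr t (Fm.mul (Fm.mul (Fm.st ε (Fm.Nf s')) (Fm.Nf s)) (Fm.of g₂))) = 0 := by
  have hν : W.φ (1 + (ε s' : R) - t s') = 0 := by
    rw [← W.Ns_mul_N]; exact hId s' hs'
  have H : W.Good (piF u' s') g h := good_piF hu hν hr
  set π := piF u' s' with hπ
  have hP : W.ev π = W.φ u' * (W.α s' - 1) := by rw [hπ, piF, ev_smul, ev_Nf]
  have hQ : W.evs π = W.φ u' * (W.φ (ε s' : R) * W.α s'⁻¹ - 1) := by
    rw [hπ, piF, evs_smul, evs_Nf]
  have step4 : ∀ s ∈ I, W.evs π * (W.α s - 1) = 0 := fun s hs => by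
    rw [hQ, mul_assoc, hId s hs, mul_zero]
  have step5 : ∀ s ∈ I, (W.φ (ε s : R) * W.α s⁻¹ - 1) * W.ev π = 0 := by
    intro s hs
    have h1 := W.ev_add_evs (Fm.mul (Fm.st ε π) (Fm.Nf s))
    rw [ev_mul, evs_mul, ev_st, evs_st, ev_Nf, evs_Nf, step4 s hs, zero_add] at h1
    have h2 : W.φ (Fm.tr t (Fm.mul (Fm.st ε π) (Fm.Nf s))) * W.evs π = 0 := by
      rw [← h1, mul_assoc, H.PQ, mul_zero]
    apply H.mulP_eq_zero
    rw [← mul_assoc, ← mul_assoc, h1, W.comm, mul_assoc, h2, mul_zero]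
  have step5' : ∀ s ∈ I, (W.φ (ε s : R) * W.α s⁻¹ - 1) * (W.α s' - 1) = 0 := by
    intro s hs
    have h1 := step5 s hs
    have h2 := W.φ_comm_ev u' (Fm.Nf s')
    rw [ev_Nf] at h2
    rw [hP, h2, ← mul_assoc] at h1
    have h3 := congrArg (fun y => y * W.φ ((ε s' : R) - 1)) h1
    simp only [zero_mul] at h3
    rwa [mul_assoc, ← map_mul, mul_comm u', hu, map_one, mul_one] at h3
  intro s hs g₂
  rw [← ev_add_evs, ev_mul, ev_mul, evs_mul, evs_mul, ev_st, evs_st, ev_Nf, evs_Nf, ev_Nf, evs_Nf,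
    hId s hs, step5' s hs]
  simp

/-- **(RES-b)** -/
theorem res_b [Nontrivial E] {s' : G} {u' : R} (hu : ((ε s' : R) - 1) * u' = 1)
    (hν : W.φ (1 + (ε s' : R) - t s') = 0) {g h : G}
    (hr : ∃ r' : R, W.φ r' * W.φ (r1 ε t (piF u' s') g h) = 1) :
    W.α s' ≠ W.φ (ε s' : R) := by
  intro hα
  have H : W.Good (piF u' s') g h := good_piF hu hν hr
  have hP : W.ev (piF u' s') = 1 := by
    rw [piF, ev_smul, ev_Nf, hα, ← map_one W.φ, ← map_sub, ← map_mul, mul_comm, hu]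
  have hQ : W.evs (piF u' s') = 0 := by rw [H.Q_eq, hP, sub_self]
  have h1 := H.key
  rw [hQ, hP] at h1
  simp only [mul_zero, zero_mul, mul_one] at h1
  obtain ⟨r', hr'⟩ := H.unit
  rw [← h1, mul_zero] at hr'
  exact zero_ne_one hr'

/-- **(RES-a)** -/
theorem res_a [Nontrivial E] (I : Set G) {s' : G} {u' : R} (hu : ((ε s' : R) - 1) * u' = 1)
    (hν : W.φ (1 + (ε s' : R) - t s') = 0) {g h : G}
    (hr : ∃ r' : R, W.φ r' * W.φ (r1 ε t (piF u' s') g h) = 1)
    (hI : ∀ s ∈ I, ∀ y : Fm R G,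
      W.φ (Fm.tr t (Fm.mul (Fm.mul (Ef ε s) (piF u' s')) y)) = 0) :
    W.ev (piF u' s') ≠ 0 ∧ ∀ s ∈ I, (W.α s - W.φ (ε s : R)) * W.ev (piF u' s') = 0 := by
  have H : W.Good (piF u' s') g h := good_piF hu hν hr
  refine ⟨H.P_ne_zero, fun s hs => ?_⟩
  have := H.ker_thm _ (hI s hs)
  rwa [ev_mul, ev_Ef] at this

end CHRep

end Fermat.Agent.ORD.TR
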