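import Fermat.Agent.ORD.TR.Interface
import Fermat.Agent.ES.S31.Span
import Fermat.Agent.ES.S31.Lucas

/-!
# ORD / TR : packages TR-CH2 and TR-TRZ
-/

set_option autoImplicit false

namespace Fermat.Agent.ORD.TR

open Module

local notation "Γℚ" => (AlgebraicClosure ℚ ≃ₐ[ℚ] AlgebraicClosure ℚ)

/-- (TR-CH2) -/
theorem stmt_CH2 : Stmt_CH2 := by
  intro T V _ _ _ _ _ hV f g hfg
  classical
  rcases subsingleton_or_nontrivial T with hT | hT
  · have : Subsingleton V := Module.subsingleton T V
    exact Subsingleton.elim _ _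
  let b : Basis (Fin 2) T V := Module.finBasisOfFinrankEq T V hV
  set M := LinearMap.toMatrix b b f with hM
  have h1 : f * f = LinearMap.trace T V f • f - LinearMap.det f • (1 : Module.End T V) := by
    apply (LinearMap.toMatrix b b).injective
    have h2 := Fermat.Agent.ES.S31.cayley_two' M
    rw [map_sub, map_smul, map_smul, LinearMap.toMatrix_one, Module.End.mul_eq_comp,
      LinearMap.toMatrix_comp b b b, LinearMap.trace_eq_matrix_trace T b,
      ← LinearMap.det_toMatrix b f]
    exact h2
  have h3 := congrArg (fun x => x * g) h1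
  simp only [sub_mul, smul_mul_assoc, one_mul, mul_assoc, hfg, mul_one] at h3
  exact eq_sub_iff_add_eq.1 h3

/-- (TR-TRZ) -/
theorem stmt_TraceZero : Stmt_TraceZero := by
  intro A _ _ ρ habs X hX
  classical
  let b : Basis (Fin 2) A ρ.V := Module.finBasisOfFinrankEq A ρ.V ρ.finrank_eq
  let bk : Basis (Fin 2) (IsLocalRing.ResidueField A)
      (TensorProduct A (IsLocalRing.ResidueField A) ρ.V) :=
    Algebra.TensorProduct.basis (IsLocalRing.ResidueField A) b
  have hspan := Fermat.Agent.S53.span_range_eq_top ρ.residual habs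
  have hM : ∀ g, LinearMap.toMatrix bk bk (ρ.residual.ρ g) =
      (LinearMap.toMatrix b b (ρ.ρ g)).map (IsLocalRing.residue A) := fun g =>
    LinearMap.toMatrix_baseChange (IsLocalRing.ResidueField A) (ρ.ρ g) b b
  have hspan' : Submodule.span (IsLocalRing.ResidueField A)
      (Set.range fun g : Γℚ => (LinearMap.toMatrix b b (ρ.ρ g)).map (IsLocalRing.residue A))
        = ⊤ := by
    have h1 := Fermat.Agent.ES.S31.span_range_equiv_eq_top (LinearMap.toMatrix bk bk)
      (fun g => ρ.residual.ρ g) hspan
    rw [← h1]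
    congr 2
    funext g
    exact (hM g).symm
  have key := Fermat.Agent.ES.S31.eq_of_trace_mul_eq
    (fun g : Γℚ => LinearMap.toMatrix b b (ρ.ρ g)) hspan'
    (LinearMap.toMatrix b b X) 0 (fun g => by
      have := hX g
      rw [LinearMap.trace_eq_matrix_trace A b, LinearMap.toMatrix_mul, Matrix.trace_mul_comm]
        at this
      rw [this, mul_zero, Matrix.trace_zero])
  apply (LinearMap.toMatrix b b).injective
  rw [key, map_zero]

end Fermat.Agent.ORD.TR
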