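import Fermat.Agent.ORD.TR.Formal

/-!
# ORD / TR : the formal calculus (evaluation lemmas)
-/

set_option autoImplicit false

namespace Fermat.Agent.ORD.TR

variable {R G E : Type*} [CommRing R] [Group G] [Ring E] {ε : G →* Rˣ} {t : G → R}

namespace CHRep

variable (W : CHRep ε t E)

@[simp] theorem ev_nil : W.ev [] = 0 := rfl

@[simp] theorem ev_cons (a : R × G) (x : Fm R G) :
    W.ev (a :: x) = W.φ a.1 * W.α a.2 + W.ev x := by
  simp [ev]

theorem ev_append (x y : Fm R G) : W.ev (x ++ y) = W.ev x + W.ev y := by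
  simp [ev]

theorem φ_comm_φ (r r' : R) : W.φ r * W.φ r' = W.φ r' * W.φ r := by
  rw [← map_mul, ← map_mul, mul_comm]

theorem φ_comm_ev (r : R) (x : Fm R G) : W.φ r * W.ev x = W.ev x * W.φ r := by
  induction x with
  | nil => simp
  | cons a x ih =>
    rw [ev_cons, mul_add, add_mul, ih, ← mul_assoc, W.φ_comm_φ r a.1, mul_assoc, W.comm r a.2,
      mul_assoc]

theorem ev_smul (r : R) (x : Fm R G) : W.ev (Fm.smul r x) = W.φ r * W.ev x := by
  induction x with
  | nil => simp [Fm.smul]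
  | cons a x ih =>
    have : Fm.smul r (a :: x) = (r * a.1, a.2) :: Fm.smul r x := rfl
    rw [this, ev_cons, ev_cons, ih, mul_add, map_mul, mul_assoc]

theorem ev_map_mul (a : R × G) (y : Fm R G) :
    W.ev (y.map fun b => (a.1 * b.1, a.2 * b.2)) = W.φ a.1 * W.α a.2 * W.ev y := by
  induction y with
  | nil => simp
  | cons b y ih =>
    rw [List.map_cons, ev_cons, ev_cons, ih, mul_add]
    congr 1
    simp only [map_mul]
    rw [mul_assoc, mul_assoc, ← mul_assoc (W.φ b.1), W.comm b.1 a.2, mul_assoc]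

theorem ev_mul (x y : Fm R G) : W.ev (Fm.mul x y) = W.ev x * W.ev y := by
  induction x with
  | nil => simp [Fm.mul]
  | cons a x ih =>
    have : Fm.mul (a :: x) y = (y.map fun b => (a.1 * b.1, a.2 * b.2)) ++ Fm.mul x y := by
      simp [Fm.mul]
    rw [this, ev_append, ih, ev_map_mul, ev_cons, add_mul]

/-- evaluation of the conjugate. -/
def evs (x : Fm R G) : E := W.ev (Fm.st ε x)

@[simp] theorem evs_nil : W.evs [] = 0 := rfl

theorem evs_cons (a : R × G) (x : Fm R G) :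
    W.evs (a :: x) = W.φ a.1 * (W.φ (ε a.2 : R) * W.α a.2⁻¹) + W.evs x := by
  have : Fm.st ε (a :: x) = (a.1 * (ε a.2 : R), a.2⁻¹) :: Fm.st ε x := rfl
  rw [evs, this, ev_cons, map_mul, mul_assoc]
  rfl

theorem evs_append (x y : Fm R G) : W.evs (x ++ y) = W.evs x + W.evs y := by
  rw [evs, Fm.st, List.map_append, ev_append]
  rfl

theorem φ_comm_evs (r : R) (x : Fm R G) : W.φ r * W.evs x = W.evs x * W.φ r :=
  W.φ_comm_ev r _

theorem evs_smul (r : R) (x : Fm R G) : W.evs (Fm.smul r x) = W.φ r * W.evs x := by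
  induction x with
  | nil => simp [Fm.smul]
  | cons a x ih =>
    have : Fm.smul r (a :: x) = (r * a.1, a.2) :: Fm.smul r x := rfl
    rw [this, evs_cons, evs_cons, ih, mul_add, map_mul, mul_assoc]

theorem evs_map_mul (a : R × G) (y : Fm R G) :
    W.evs (y.map fun b => (a.1 * b.1, a.2 * b.2))
      = W.evs y * (W.φ a.1 * (W.φ (ε a.2 : R) * W.α a.2⁻¹)) := by
  induction y with
  | nil => simp
  | cons b y ih =>
    rw [List.map_cons, evs_cons, evs_cons, ih, add_mul]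
    congr 1
    simp only [map_mul, mul_inv_rev, Units.val_mul]
    have c1 := W.comm a.1 b.2⁻¹
    have c2 := W.comm (ε a.2 : R) b.2⁻¹
    calc W.φ a.1 * W.φ b.1 * (W.φ (ε a.2 : R) * W.φ (ε b.2 : R) * (W.α b.2⁻¹ * W.α a.2⁻¹))
        = W.φ (a.1 * b.1 * ((ε a.2 : R) * (ε b.2 : R))) * (W.α b.2⁻¹ * W.α a.2⁻¹) := by
          simp only [map_mul, mul_assoc]
      _ = W.φ (b.1 * (ε b.2 : R)) * W.φ (a.1 * (ε a.2 : R)) * (W.α b.2⁻¹ * W.α a.2⁻¹) := by
          have : a.1 * b.1 * ((ε a.2 : R) * (ε b.2 : R))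
              = b.1 * (ε b.2 : R) * (a.1 * (ε a.2 : R)) := by ring
          rw [this, map_mul (W.φ) (b.1 * (ε b.2 : R))]
      _ = W.φ (b.1 * (ε b.2 : R)) * (W.φ (a.1 * (ε a.2 : R)) * W.α b.2⁻¹) * W.α a.2⁻¹ := by
          simp only [mul_assoc]
      _ = W.φ (b.1 * (ε b.2 : R)) * (W.α b.2⁻¹ * W.φ (a.1 * (ε a.2 : R))) * W.α a.2⁻¹ := by
          rw [W.comm]
      _ = _ := by simp only [map_mul, mul_assoc]

theorem evs_mul (x y : Fm R G) : W.evs (Fm.mul x y) = W.evs y * W.evs x := by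
  induction x with
  | nil => simp [Fm.mul]
  | cons a x ih =>
    have : Fm.mul (a :: x) y = (y.map fun b => (a.1 * b.1, a.2 * b.2)) ++ Fm.mul x y := by
      simp [Fm.mul]
    rw [this, evs_append, ih, evs_map_mul, evs_cons, mul_add]

theorem evs_st (x : Fm R G) : W.evs (Fm.st ε x) = W.ev x := by
  induction x with
  | nil => rfl
  | cons a x ih =>
    have : Fm.st ε (a :: x) = (a.1 * (ε a.2 : R), a.2⁻¹) :: Fm.st ε x := rfl
    rw [this, evs_cons, ih, ev_cons]
    congr 1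
    simp only [inv_inv, map_inv]
    rw [← mul_assoc, ← map_mul, mul_assoc, Units.mul_inv, mul_one]

theorem ev_st (x : Fm R G) : W.ev (Fm.st ε x) = W.evs x := rfl

/-- the fundamental identity `x + x* = τ(x)`. -/
theorem ev_add_evs (x : Fm R G) : W.ev x + W.evs x = W.φ (Fm.tr t x) := by
  induction x with
  | nil => simp [Fm.tr]
  | cons a x ih =>
    have : Fm.tr t (a :: x) = a.1 * t a.2 + Fm.tr t x := by simp [Fm.tr]
    rw [this, map_add, ← ih, ev_cons, evs_cons, map_mul, ← W.ch a.2, mul_add]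
    abel

@[simp] theorem ev_of (g : G) : W.ev (Fm.of g) = W.α g := by simp [Fm.of]

@[simp] theorem evs_of (g : G) : W.evs (Fm.of g) = W.φ (ε g : R) * W.α g⁻¹ := by
  rw [Fm.of, evs_cons]; simp

@[simp] theorem ev_Nf (s : G) : W.ev (Fm.Nf s) = W.α s - 1 := by
  simp [Fm.Nf, sub_eq_add_neg]

@[simp] theorem evs_Nf (s : G) : W.evs (Fm.Nf s) = W.φ (ε s : R) * W.α s⁻¹ - 1 := by
  rw [Fm.Nf, evs_cons, evs_cons]; simp [sub_eq_add_neg]

theorem α_mul_inv (g : G) : W.α g * W.α g⁻¹ = 1 := by rw [← map_mul, mul_inv_cancel, map_one]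

theorem α_inv_mul (g : G) : W.α g⁻¹ * W.α g = 1 := by rw [← map_mul, inv_mul_cancel, map_one]

/-- `N_s N_s* = 1 + ε(s) - t(s)`. -/
theorem N_mul_Ns (s : G) :
    (W.α s - 1) * (W.φ (ε s : R) * W.α s⁻¹ - 1) = W.φ (1 + (ε s : R) - t s) := by
  rw [map_sub, map_add, map_one, ← W.ch s, sub_mul, mul_sub, one_mul, mul_one, ← mul_assoc,
    ← W.comm, mul_assoc, W.α_mul_inv, mul_one]
  abel

theorem Ns_mul_N (s : G) :
    (W.φ (ε s : R) * W.α s⁻¹ - 1) * (W.α s - 1) = W.φ (1 + (ε s : R) - t s) := by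
  rw [map_sub, map_add, map_one, ← W.ch s, sub_mul, mul_sub, one_mul, mul_one, mul_assoc,
    W.α_inv_mul, mul_one]
  abel

/-- `φ (τ x)` only depends on the two evaluations. -/
theorem φ_tr_congr {x y : Fm R G} (h1 : W.ev x = W.ev y) (h2 : W.evs x = W.evs y) :
    W.φ (Fm.tr t x) = W.φ (Fm.tr t y) := by
  rw [← ev_add_evs, ← ev_add_evs, h1, h2]

/-- cyclicity of the formal trace. -/
theorem φ_tr_mul_comm (x y : Fm R G) :
    W.φ (Fm.tr t (Fm.mul x y)) = W.φ (Fm.tr t (Fm.mul y x)) := by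
  rw [← ev_add_evs, ← ev_add_evs, ev_mul, ev_mul, evs_mul, evs_mul]
  have hx : W.evs x = W.φ (Fm.tr t x) - W.ev x := by rw [← ev_add_evs]; abel
  have hy : W.evs y = W.φ (Fm.tr t y) - W.ev y := by rw [← ev_add_evs]; abel
  rw [hx, hy]
  have c1 := W.φ_comm_ev (Fm.tr t x) y
  have c2 := W.φ_comm_ev (Fm.tr t y) x
  have c3 := W.φ_comm_φ (Fm.tr t x) (Fm.tr t y)
  simp only [sub_mul, mul_sub]
  rw [c1, c2, c3]
  abel

end CHRep

end Fermat.Agent.ORD.TR
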