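import Fermat.Agent.ORD.TR.H1Abs

/-!
# ORD / TR : the abstract core (`Λ`-side)

From the abstract ordinary clause for a faithful Cayley--Hamilton representation on `Λ` we get the
vanishing of `Pi (τ (N_s^* N_t g))`.
-/

set_option autoImplicit false

namespace Fermat.Agent.ORD.TR

section Core

variable {p : ℕ} [Fact p.Prime] {R : Type} [CommRing R] {G : Type*} [Group G]
  {ε : G →* Rˣ} {t : G → R} {Λ : Type} [AddCommGroup Λ] [Module ℤ_[p] Λ]

/-- `I_aug Λ`. -/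
noncomputable def augL (W : CHRep ε t (Module.End ℤ_[p] Λ)) (I : Set G) : Submodule ℤ_[p] Λ :=
  Submodule.span ℤ_[p] {x | ∃ s ∈ I, ∃ w : Λ, x = W.α s w - w}

theorem core_abs [Module.IsTorsionFree ℤ_[p] Λ]
    (W : CHRep ε t (Module.End ℤ_[p] Λ)) (hinj : Function.Injective W.φ) (εp : G → ℤ_[p])
    (hε : ∀ g, W.φ (ε g : R) = εp g • (1 : Module.End ℤ_[p] Λ))
    (I : Set G) (hC : AbsClause W εp I (augL W I))
    {T : Type} [CommRing T] [IsLocalRing T] (Pi : R →+* T)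
    (e : R) (he : e * e = e) (hPe : Pi e = 1)
    (hunit : ∀ r : R, IsUnit (Pi r) → ∃ r' : R, r * r' * e = e)
    (hsoc : ∀ (Wm : Type) [AddCommGroup Wm] [Module R Wm], Nontrivial Wm →
      (∀ w : Wm, e • w = w) → (∀ w : Wm, (p : R) • w = 0) →
      ∃ w : Wm, w ≠ 0 ∧ ∀ r, Pi r ∈ IsLocalRing.maximalIdeal T → r • w = 0)
    {s' : G} (hs' : s' ∈ I) {u' : R} (hu : ((ε s' : R) - 1) * u' = 1)
    (hν : Pi (1 + (ε s' : R) - t s') ∈ IsLocalRing.maximalIdeal T)
    {g h : G} (hr : IsUnit (Pi (r1 ε t (piF u' s') g h)))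
    (hI : ∀ s ∈ I, ∀ y, Pi (Fm.tr t (Fm.mul (Fm.mul (Ef ε s) (piF u' s')) y))
      ∈ IsLocalRing.maximalIdeal T) :
    ∀ s ∈ I, ∀ s₂ ∈ I, ∀ g₂ : G,
      Pi (Fm.tr t (Fm.mul (Fm.mul (Fm.st ε (Fm.Nf s)) (Fm.Nf s₂)) (Fm.of g₂))) = 0 := by
  obtain ⟨r', hr'⟩ := hunit _ hr
  -- the `e`-part
  let B : Submodule ℤ_[p] Λ := LinearMap.range (W.φ e)
  have hBφ : ∀ r, ∀ v ∈ B, W.φ r v ∈ B := by
    rintro r _ ⟨w, rfl⟩
    exact ⟨W.φ r w, by rw [← Module.End.mul_apply, ← Module.End.mul_apply, W.φ_comm_φ]⟩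
  have hBα : ∀ g, ∀ v ∈ B, W.α g v ∈ B := by
    rintro g _ ⟨w, rfl⟩
    exact ⟨W.α g w, by rw [← Module.End.mul_apply, ← Module.End.mul_apply, W.comm]⟩
  have hBe : ∀ v ∈ B, W.φ e v = v := by
    rintro _ ⟨w, rfl⟩
    rw [← Module.End.mul_apply, ← map_mul, he]
  let We := W.restr B hBφ hBα
  have hzero : ∀ c : R, W.φ (c * e) = 0 → We.φ c = 0 := by
    intro c hc
    ext v
    show W.φ c v.1 = 0
    rw [← hBe v.1 v.2, ← Module.End.mul_apply, ← map_mul, hc, LinearMap.zero_apply]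
  have hzero' : ∀ c : R, We.φ c = 0 → W.φ (c * e) = 0 := by
    intro c hc
    ext v
    have := congrArg Subtype.val (LinearMap.congr_fun hc ⟨W.φ e v, v, rfl⟩)
    rw [map_mul, Module.End.mul_apply]
    exact this
  have key := CHRep.ord_abs (W := We) I (fun x => ∀ v : B, ((x v : B) : Λ) ∈ augL W I)
    (fun x y hx hy v => by
      rw [LinearMap.add_apply, Submodule.coe_add]
      exact Submodule.add_mem _ (hx v) (hy v))
    (fun s hs y v => by
      rw [Module.End.mul_apply, LinearMap.sub_apply, Module.End.one_apply, Submodule.coe_sub]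
      exact Submodule.subset_span ⟨s, hs, ((y v : B) : Λ), rfl⟩)
    (fun c hc => by
      apply hzero
      apply h1_abs W εp hε I (augL W I) hC (fun r => Pi r ∈ IsLocalRing.maximalIdeal T) e he hsoc
        hs' hu hν hr' hI c
      intro v
      rw [map_mul, Module.End.mul_apply]
      exact hc ⟨W.φ e v, v, rfl⟩)
    hs' hu (g := g) (h := h)
    ⟨r', by
      ext v
      show W.φ r' (W.φ (r1 ε t (piF u' s') g h) v.1) = v.1
      conv_lhs => rw [← hBe v.1 v.2]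
      rw [← Module.End.mul_apply, ← Module.End.mul_apply, ← map_mul, ← map_mul, mul_comm r', hr',
        hBe v.1 v.2]⟩
  intro s hs s₂ hs₂ g₂
  have h1 := hzero' _ (key s hs s₂ hs₂ g₂)
  have h2 := hinj (h1.trans (map_zero W.φ).symm)
  have h3 := congrArg Pi h2
  rwa [map_mul, hPe, mul_one, map_zero] at h3

end Core

end Fermat.Agent.ORD.TR
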