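import Fermat.Agent.ORD.TR.Interface
import Fermat.Agent.ES.S31.Span

/-! # ORD / TR-H3 : primeness of `M₂(k)` + Burnside. -/

set_option autoImplicit false

namespace Fermat.Agent.ORD.TR

open Module

local notation "Γℚ" => (AlgebraicClosure ℚ ≃ₐ[ℚ] AlgebraicClosure ℚ)

section Mat

variable {A : Type*} [CommRing A] [IsLocalRing A] {n : Type*} [Fintype n] [DecidableEq n]

theorem H3_exists_diag (X : Matrix n n A) (hX : IsUnit X.trace) : ∃ i, IsUnit (X i i) := by
  by_contra h
  push Not at h
  have : X.trace ∈ IsLocalRing.maximalIdeal A :=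
    Ideal.sum_mem _ fun i _ => (IsLocalRing.mem_maximalIdeal _).2 (h i)
  exact (IsLocalRing.mem_maximalIdeal _).1 this hX

theorem H3_trace_single (X Y : Matrix n n A) (i k : n) :
    (X * Matrix.single i k 1 * Y * Matrix.single k i 1).trace = X i i * Y k k := by
  rw [Matrix.trace_mul_comm, ← mul_assoc, ← mul_assoc, Matrix.single_mul_mul_single,
    Matrix.trace_single_mul]
  simp

theorem H3_mat {ι : Type*} (f : ι → Matrix n n A) (hf : Submodule.span A (Set.range f) = ⊤)
    (X Y : Matrix n n A) (hX : IsUnit X.trace) (hY : IsUnit Y.trace) :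
    ∃ g h, IsUnit (X * f g * Y * f h).trace := by
  by_contra hcon
  push Not at hcon
  have h0 : ∀ g h, (X * f g * Y * f h).trace ∈ IsLocalRing.maximalIdeal A := fun g h =>
    (IsLocalRing.mem_maximalIdeal _).2 (hcon g h)
  have h1 : ∀ (B : Matrix n n A) h, (X * B * Y * f h).trace ∈ IsLocalRing.maximalIdeal A := by
    intro B h
    have hB : B ∈ Submodule.span A (Set.range f) := by rw [hf]; exact Submodule.mem_top
    induction hB using Submodule.span_induction with
    | mem y hy => obtain ⟨g, rfl⟩ := hy; exact h0 g h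
    | zero => simp
    | add y z _ _ hy hz =>
      rw [mul_add, add_mul, add_mul, Matrix.trace_add]
      exact add_mem hy hz
    | smul c y _ hy =>
      rw [Matrix.mul_smul, Matrix.smul_mul, Matrix.smul_mul, Matrix.trace_smul]
      exact Ideal.mul_mem_left _ c hy
  have h2 : ∀ (B C : Matrix n n A), (X * B * Y * C).trace ∈ IsLocalRing.maximalIdeal A := by
    intro B C
    have hC : C ∈ Submodule.span A (Set.range f) := by rw [hf]; exact Submodule.mem_top
    induction hC using Submodule.span_induction with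
    | mem y hy => obtain ⟨g, rfl⟩ := hy; exact h1 B g
    | zero => simp
    | add y z _ _ hy hz =>
      rw [mul_add, Matrix.trace_add]
      exact add_mem hy hz
    | smul c y _ hy =>
      rw [Matrix.mul_smul, Matrix.trace_smul]
      exact Ideal.mul_mem_left _ c hy
  obtain ⟨i, hi⟩ := H3_exists_diag X hX
  obtain ⟨k, hk⟩ := H3_exists_diag Y hY
  have h3 := h2 (Matrix.single i k 1) (Matrix.single k i 1)
  rw [H3_trace_single] at h3
  exact (IsLocalRing.mem_maximalIdeal _).1 h3 (hi.mul hk)

end Mat

theorem stmt_H3 : Stmt_H3 := by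
  intro A _ _ ρ habs X Y hX hY
  classical
  let b : Basis (Fin 2) A ρ.V := Module.finBasisOfFinrankEq A ρ.V ρ.finrank_eq
  let bk : Basis (Fin 2) (IsLocalRing.ResidueField A)
      (TensorProduct A (IsLocalRing.ResidueField A) ρ.V) :=
    Algebra.TensorProduct.basis (IsLocalRing.ResidueField A) b
  have hspan := Fermat.Agent.S53.span_range_eq_top ρ.residual habs
  have hM : ∀ g, LinearMap.toMatrix bk bk (ρ.residual.ρ g) =
      (LinearMap.toMatrix b b (ρ.ρ g)).map (IsLocalRing.residue A) := fun g =>
    LinearMap.toMatrix_baseChange (IsLocalRing.ResidueField A) (ρ.ρ g) b b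
  have hspan' : Submodule.span (IsLocalRing.ResidueField A)
      (Set.range fun g : Γℚ => (LinearMap.toMatrix b b (ρ.ρ g)).map (IsLocalRing.residue A))
        = ⊤ := by
    have h1 := Fermat.Agent.ES.S31.span_range_equiv_eq_top (LinearMap.toMatrix bk bk)
      (fun g => ρ.residual.ρ g) hspan
    rw [← h1]
    congr 2
    funext g
    exact (hM g).symm
  have hsp := Fermat.Agent.ES.S31.span_eq_top_of_residue
    (fun g : Γℚ => LinearMap.toMatrix b b (ρ.ρ g)) hspan'
  rw [LinearMap.trace_eq_matrix_trace A b] at hX hY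
  obtain ⟨g, h, hgh⟩ := H3_mat _ hsp _ _ hX hY
  refine ⟨g, h, ?_⟩
  rw [LinearMap.trace_eq_matrix_trace A b, LinearMap.toMatrix_mul, LinearMap.toMatrix_mul,
    LinearMap.toMatrix_mul]
  exact hgh

end Fermat.Agent.ORD.TR
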