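import Fermat.Agent.ORD.TR.Interface
import Fermat.Prelude.Thm_Algebra_finite_maximalSpectrum_and_bijective_localization_of_module_finite

/-!
# ORD / TR-IDEM : the idempotent of a finite `ℤ_p`-algebra at `Pi⁻¹(𝔪_T)` and the socle statement
-/

set_option autoImplicit false
set_option linter.style.haveILetI false

namespace Fermat.Agent.ORD.TR

namespace Idem

variable {p : ℕ} [Fact p.Prime] {R : Type} [CommRing R] [Algebra ℤ_[p] R] [Module.Finite ℤ_[p] R]

/-- a prime ideal of `R` containing `p` is maximal. -/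
theorem isMaximal_of_p_mem (q : Ideal R) [hq : q.IsPrime] (hp : (p : R) ∈ q) : q.IsMaximal := by
  haveI : Algebra.IsIntegral ℤ_[p] R := Algebra.IsIntegral.of_finite ℤ_[p] R
  apply Ideal.isMaximal_of_isIntegral_of_isMaximal_comap (R := ℤ_[p]) q
  have h1 : q.comap (algebraMap ℤ_[p] R) = IsLocalRing.maximalIdeal ℤ_[p] := by
    apply le_antisymm
    · exact IsLocalRing.le_maximalIdeal (Ideal.comap_ne_top _ hq.ne_top)
    · rw [PadicInt.maximalIdeal_eq_span_p, Ideal.span_le, Set.singleton_subset_iff]
      show algebraMap ℤ_[p] R (p : ℤ_[p]) ∈ q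
      rw [map_natCast]
      exact hp
  rw [h1]
  infer_instance

end Idem

open Idem in
theorem stmt_Idem : Stmt_Idem := by
  classical
  intro p _ R _ _ _ T _ _ ϖ hpT
  obtain ⟨-, hbij, -, -⟩ :=
    Algebra.finite_maximalSpectrum_and_bijective_localization_of_module_finite (𝒪 := ℤ_[p]) R
  set Φ := (RingHom.pi fun I : MaximalSpectrum R =>
        algebraMap R (Localization.AtPrime I.asIdeal)) with hΦ
  have hΦa : ∀ (r : R) (I : MaximalSpectrum R),
      Φ r I = algebraMap R (Localization.AtPrime I.asIdeal) r := fun _ _ => rfl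
  -- the maximal ideal
  let MM : Ideal R := (IsLocalRing.maximalIdeal T).comap ϖ
  haveI hMMp : MM.IsPrime := Ideal.comap_isPrime _ _
  have hpMM : (p : R) ∈ MM := by
    show ϖ (p : R) ∈ IsLocalRing.maximalIdeal T
    rw [map_natCast]; exact hpT
  have hMMmax : MM.IsMaximal := isMaximal_of_p_mem MM hpMM
  let I₀ : MaximalSpectrum R := ⟨MM, hMMmax⟩
  have hunit : ∀ r : R, r ∉ MM → IsUnit (ϖ r) := by
    intro r hr
    by_contra h
    exact hr ((IsLocalRing.mem_maximalIdeal _).2 h)
  have hnot : ∀ r : R, IsUnit (ϖ r) → r ∉ MM := by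
    intro r hr h
    exact ((IsLocalRing.mem_maximalIdeal _).1 h) hr
  obtain ⟨e, he⟩ := hbij.2 (Pi.single I₀ 1)
  have heI₀ : algebraMap R (Localization.AtPrime MM) e = 1 := by
    have := congrFun he I₀
    rw [Pi.single_eq_same] at this
    exact this
  have heI : ∀ I : MaximalSpectrum R, I ≠ I₀ →
      algebraMap R (Localization.AtPrime I.asIdeal) e = 0 := by
    intro I hI
    have := congrFun he I
    rw [Pi.single_eq_of_ne hI] at this
    exact this
  have hee : e * e = e := by
    apply hbij.1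
    rw [map_mul, he]
    funext I
    by_cases hI : I = I₀
    · subst hI
      simp
    · simp [Pi.single_eq_of_ne hI]
  have hmem : ∀ I : MaximalSpectrum R, I ≠ I₀ → e ∈ I.asIdeal := by
    intro I hI
    have h0 := heI I hI
    rw [IsLocalization.map_eq_zero_iff I.asIdeal.primeCompl] at h0
    obtain ⟨m, hm⟩ := h0
    haveI := I.isMaximal.isPrime
    have h1 : (m : R) * e ∈ I.asIdeal := by rw [hm]; exact zero_mem _
    exact (Ideal.IsPrime.mem_or_mem ‹_› h1).resolve_left m.2
  refine ⟨e, hee, ?_, ?_, ?_⟩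
  · -- `ϖ e = 1`
    have h0 : algebraMap R (Localization.AtPrime MM) (e - 1) = 0 := by
      rw [map_sub, heI₀, map_one, sub_self]
    rw [IsLocalization.map_eq_zero_iff MM.primeCompl] at h0
    obtain ⟨m, hm⟩ := h0
    have h1 : ϖ (m : R) * (ϖ e - 1) = 0 := by
      rw [← map_one ϖ, ← map_sub, ← map_mul, hm, map_zero]
    have h2 := (hunit m m.2).mul_right_eq_zero.1 h1
    exact sub_eq_zero.1 h2
  · -- inverses
    intro r hr
    have hrM : r ∉ MM := hnot r hr
    have hu : IsUnit (algebraMap R (Localization.AtPrime MM) r) :=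
      IsLocalization.map_units (Localization.AtPrime MM) (⟨r, hrM⟩ : MM.primeCompl)
    obtain ⟨s, hs⟩ := hu.exists_right_inv
    obtain ⟨r', hr'⟩ := hbij.2 (Pi.single I₀ s)
    refine ⟨r', ?_⟩
    apply hbij.1
    rw [map_mul, map_mul, he, hr']
    funext I
    by_cases hI : I = I₀
    · subst hI
      simp only [Pi.mul_apply, Pi.single_eq_same, mul_one]
      exact hs
    · simp [Pi.single_eq_of_ne hI]
  · -- the socle
    intro W _ _ hW heW hpW
    haveI : IsNoetherianRing R := IsNoetherianRing.of_finite ℤ_[p] R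
    obtain ⟨q, hq⟩ := associatedPrimes.nonempty R W
    rw [AssociatedPrimes.mem_iff, isAssociatedPrime_iff] at hq
    obtain ⟨hqp, w, hqw⟩ := hq
    have hmemq : ∀ r : R, r ∈ q ↔ r • w = 0 := by
      intro r
      rw [hqw, Submodule.mem_colon_singleton, Submodule.mem_bot]
    have hw0 : w ≠ 0 := by
      rintro rfl
      apply hqp.ne_top
      rw [Ideal.eq_top_iff_one, hmemq, smul_zero]
    have hpq : (p : R) ∈ q := (hmemq _).2 (hpW w)
    have hqmax : q.IsMaximal := isMaximal_of_p_mem q hpq
    have h1e : (1 - e) ∈ q := by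
      rw [hmemq, sub_smul, one_smul, heW, sub_self]
    have heq : e ∉ q := by
      intro h
      apply hqp.ne_top
      rw [Ideal.eq_top_iff_one]
      have := add_mem h1e h
      rwa [sub_add_cancel] at this
    have hqMM : (⟨q, hqmax⟩ : MaximalSpectrum R) = I₀ := by
      by_contra hne
      exact heq (hmem _ hne)
    have hqMM' : q = MM := congrArg MaximalSpectrum.asIdeal hqMM
    refine ⟨w, hw0, fun r hr => ?_⟩
    rw [← hmemq, hqMM']
    exact hr

end Fermat.Agent.ORD.TR
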