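import Fermat.Agent.ORD.TR.Interface

/-!
# ORD / TR-B : the identity `adj(N_s) N_t = 0` implies ordinarity
-/

set_option autoImplicit false

namespace Fermat.Agent.ORD.TR

open Module

local notation "Γℚ" => (AlgebraicClosure ℚ ≃ₐ[ℚ] AlgebraicClosure ℚ)

/-- an idempotent of trace one on a free module of rank two over a local ring is the projection
onto the first vector of a basis. -/
theorem OrdOfId_basis {A V : Type*} [CommRing A] [IsLocalRing A] [AddCommGroup V] [Module A V]
    [Module.Free A V] [Module.Finite A V] (hfin : finrank A V = 2) (π : Module.End A V)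
    (hπ : π * π = π) (htr : LinearMap.trace A V π = 1) :
    ∃ b : Module.Basis (Fin 2) A V, LinearMap.range π = A ∙ b 0 := by
  classical
  let c : Module.Basis (Fin 2) A V := Module.finBasisOfFinrankEq A V hfin
  set M : Matrix (Fin 2) (Fin 2) A := LinearMap.toMatrix c c π with hM
  have hMM : M * M = M := by
    rw [hM, ← LinearMap.toMatrix_mul, hπ]
  have hMtr : M 0 0 + M 1 1 = 1 := by
    rw [← Matrix.trace_fin_two, hM, ← LinearMap.trace_eq_matrix_trace, htr]
  have h00 : M 0 0 * M 0 0 + M 0 1 * M 1 0 = M 0 0 := by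
    have := congrFun (congrFun hMM 0) 0
    rwa [Matrix.mul_apply, Fin.sum_univ_two] at this
  have hrepr : ∀ i j, c.repr (π (c j)) i = M i j := fun i j => by
    rw [hM, LinearMap.toMatrix_apply]
  have hππ : ∀ v, π (π v) = π v := fun v => by
    have := congrArg (fun f : Module.End A V => f v) hπ
    simpa using this
  -- general construction
  have key : ∀ x y : V, IsUnit (c.det ![π x, y - π y]) →
      ∃ b : Module.Basis (Fin 2) A V, LinearMap.range π = A ∙ b 0 := by
    intro x y hdet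
    obtain ⟨hli, hsp⟩ := (Module.Basis.is_basis_iff_det c).mpr hdet
    let b : Module.Basis (Fin 2) A V := Module.Basis.mk hli hsp.ge
    have hb0 : b 0 = π x := by simp [b]
    have hb1 : b 1 = y - π y := by simp [b]
    refine ⟨b, le_antisymm ?_ ?_⟩
    · rintro _ ⟨v, rfl⟩
      rw [Submodule.mem_span_singleton]
      refine ⟨b.repr v 0, ?_⟩
      conv_rhs => rw [← b.sum_repr v]
      rw [Fin.sum_univ_two, map_add, map_smul, map_smul, hb0, hb1, map_sub, hππ, hππ, sub_self,
        smul_zero, add_zero]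
    · rw [Submodule.span_singleton_le_iff_mem, hb0]
      exact ⟨x, rfl⟩
  rcases IsLocalRing.isUnit_or_isUnit_of_add_one hMtr with ha | hd
  · apply key (c 0) (c 1)
    have : c.det ![π (c 0), c 1 - π (c 1)] = M 0 0 := by
      rw [Module.Basis.det_apply, Matrix.det_fin_two]
      simp only [Module.Basis.toMatrix_apply, Matrix.cons_val_zero, Matrix.cons_val_one,
        map_sub, Finsupp.sub_apply, hrepr, Module.Basis.repr_self, Finsupp.single_apply]
      simp only [Fin.isValue, one_ne_zero, if_false, if_true]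
      linear_combination h00 - M 0 0 * hMtr
    rwa [this]
  · apply key (c 1) (c 0)
    have : c.det ![π (c 1), c 0 - π (c 0)] = -M 1 1 := by
      rw [Module.Basis.det_apply, Matrix.det_fin_two]
      simp only [Module.Basis.toMatrix_apply, Matrix.cons_val_zero, Matrix.cons_val_one,
        map_sub, Finsupp.sub_apply, hrepr, Module.Basis.repr_self, Finsupp.single_apply]
      simp only [Fin.isValue, zero_ne_one, if_false, if_true]
      linear_combination (-1 : A) * h00 + M 0 0 * hMtr
    rw [this]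
    exact hd.neg

/-- a scalar which kills a free module of rank two is zero. -/
theorem OrdOfId_scalar {A V : Type*} [CommRing A] [Nontrivial A] [AddCommGroup V] [Module A V]
    [Module.Free A V] [Module.Finite A V] (hfin : finrank A V = 2) (a : A)
    (h : a • (1 : Module.End A V) = 0) : a = 0 := by
  let c : Module.Basis (Fin 2) A V := Module.finBasisOfFinrankEq A V hfin
  have h1 : a • c 0 = 0 := by
    have := congrArg (fun f : Module.End A V => f (c 0)) h
    simpa using this
  have h2 := congrArg (fun v => c.repr v 0) h1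
  simpa using h2

theorem OrdOfId_conj_aux {G : Type*} [Group G] (D : Subgroup G) (I : Subgroup D) (hn : I.Normal)
    {σ s : G} (hσ : σ ∈ D) (hs : s ∈ I.map D.subtype) : σ * s * σ⁻¹ ∈ I.map D.subtype := by
  obtain ⟨s₀, hs₀, rfl⟩ := hs
  exact Subgroup.mem_map.mpr ⟨⟨σ, hσ⟩ * s₀ * ⟨σ, hσ⟩⁻¹, hn.conj_mem s₀ hs₀ ⟨σ, hσ⟩, rfl⟩

/-- conjugation by the decomposition group preserves inertia. -/
theorem OrdOfId_conj (P : ValuationSubring (AlgebraicClosure ℚ)) {σ s : Γℚ}
    (hσ : σ ∈ P.decompositionSubgroup ℚ) (hs : s ∈ P.inertiaSubgroupIn ℚ) :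
    σ * s * σ⁻¹ ∈ P.inertiaSubgroupIn ℚ :=
  OrdOfId_conj_aux (P.decompositionSubgroup ℚ) (P.inertiaSubgroup ℚ) (MonoidHom.normal_ker _) hσ hs

/-- **(TR-B)** -/
theorem stmt_OrdOfId (h : Stmt_CH2) : Stmt_OrdOfId := by
  intro A _ _ ρ P ⟨s', hs', hu⟩ hid
  obtain ⟨u, hu⟩ := hu
  set f : Module.End A ρ.V := ρ.ρ s' with hf
  set g : Module.End A ρ.V := ρ.ρ s'⁻¹ with hg
  set d : A := LinearMap.det f with hd
  have hfg : f * g = 1 := by rw [hf, hg, ← map_mul, mul_inv_cancel, map_one]
  have hgf : g * f = 1 := by rw [hf, hg, ← map_mul, inv_mul_cancel, map_one]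
  have hCH : f + d • g = LinearMap.trace A ρ.V f • (1 : Module.End A ρ.V) :=
    h A ρ.V ρ.finrank_eq f g hfg
  have hNN : (d • g - 1) * (f - 1) = 0 := hid s' hs' s' hs'
  have htr : LinearMap.trace A ρ.V f = d + 1 := by
    have h1 : (d + 1 - LinearMap.trace A ρ.V f) • (1 : Module.End A ρ.V) = 0 := by
      rw [sub_smul, ← hCH, ← hNN, add_smul, one_smul, sub_mul, mul_sub, mul_sub, smul_mul_assoc,
        hgf, mul_one, one_mul, one_mul]
      abel
    have := OrdOfId_scalar ρ.finrank_eq _ h1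
    linear_combination -this
  have hsum : (f - 1) + (d • g - 1) = (u : A) • (1 : Module.End A ρ.V) := by
    rw [hu, sub_smul, one_smul]
    have : f + d • g = d • (1 : Module.End A ρ.V) + 1 := by
      rw [hCH, htr, add_smul, one_smul]
    calc (f - 1) + (d • g - 1) = (f + d • g) - 1 - 1 := by abel
      _ = d • (1 : Module.End A ρ.V) - 1 := by rw [this]; abel
  set π : Module.End A ρ.V := ((u⁻¹ : Aˣ) : A) • (f - 1) with hπ
  have hone : (1 : Module.End A ρ.V) - π = ((u⁻¹ : Aˣ) : A) • (d • g - 1) := by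
    have : π + ((u⁻¹ : Aˣ) : A) • (d • g - 1) = (1 : Module.End A ρ.V) := by
      rw [hπ, ← smul_add, hsum, smul_smul, Units.inv_mul, one_smul]
    exact sub_eq_iff_eq_add'.mpr this.symm
  have hkill : ∀ t ∈ P.inertiaSubgroupIn ℚ, (1 - π) * (ρ.ρ t - 1) = 0 := by
    intro t ht
    rw [hone, smul_mul_assoc, hid s' hs' t ht, smul_zero]
  have hidem : π * π = π := by
    have h1 : (1 - π) * π = 0 := by
      rw [hπ, mul_smul_comm, ← hπ, hkill s' hs', smul_zero]
    have h2 : (1 - π) * π = π - π * π := by rw [sub_mul, one_mul]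
    rw [h2, sub_eq_zero] at h1
    exact h1.symm
  have htrπ : LinearMap.trace A ρ.V π = 1 := by
    rw [hπ, map_smul, map_sub, htr, LinearMap.trace_one, ρ.finrank_eq, smul_eq_mul]
    have : d + 1 - ((2 : ℕ) : A) = (u : A) := by rw [hu]; push_cast; ring
    rw [this, Units.inv_mul]
  obtain ⟨b, hb⟩ := OrdOfId_basis ρ.finrank_eq π hidem htrπ
  have hI : ∀ t ∈ P.inertiaSubgroupIn ℚ, ∀ v : ρ.V, ρ.ρ t v - v ∈ LinearMap.range π := by
    intro t ht v
    have h1 := congrArg (fun F : Module.End A ρ.V => F v) (hkill t ht)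
    simp only [Module.End.mul_apply, LinearMap.sub_apply, Module.End.one_apply,
      LinearMap.zero_apply] at h1
    exact ⟨ρ.ρ t v - v, (sub_eq_zero.mp h1).symm⟩
  refine ⟨LinearMap.range π, ⟨b, hb⟩, ?_, hI⟩
  rintro σ hσ _ ⟨w, rfl⟩
  have hconj := hI (σ * s' * σ⁻¹) (OrdOfId_conj P hσ hs') (ρ.ρ σ w)
  have e : ρ.ρ σ (π w) = ((u⁻¹ : Aˣ) : A) • (ρ.ρ (σ * s' * σ⁻¹) (ρ.ρ σ w) - ρ.ρ σ w) := by
    have h1 : ρ.ρ (σ * s' * σ⁻¹) (ρ.ρ σ w) = ρ.ρ σ (f w) := by
      rw [← Module.End.mul_apply, ← map_mul, inv_mul_cancel_right, map_mul, Module.End.mul_apply]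
    rw [h1, hπ, LinearMap.smul_apply, map_smul, LinearMap.sub_apply, Module.End.one_apply, map_sub]
  rw [e]
  exact Submodule.smul_mem _ _ hconj

end Fermat.Agent.ORD.TR
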