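import Fermat.Agent.ORD.TR.Interface

/-!
# ORD / TR : (TR-RES) consequences of the ordinarity of the residual representation (helper9)
-/

set_option autoImplicit false

namespace Fermat.Agent.ORD.TR

open TensorProduct

/-- linear algebra in a free module of rank two with a stable line `L = k ∙ b 0` on whose quotient
`f` acts trivially. -/
theorem ResOrd_lin {k V : Type} [CommRing k] [AddCommGroup V] [Module k V]
    (b : Module.Basis (Fin 2) k V) (f : Module.End k V)
    (h1 : ∀ v ∈ k ∙ b 0, f v ∈ k ∙ b 0) (h2 : ∀ v, f v - v ∈ k ∙ b 0) :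
    LinearMap.trace k V f = 1 + LinearMap.det f ∧ ∀ v ∈ k ∙ b 0, f v = LinearMap.det f • v := by
  obtain ⟨lam, hlam⟩ :=
    Submodule.mem_span_singleton.1 (h1 (b 0) (Submodule.mem_span_singleton_self _))
  obtain ⟨mu, hmu⟩ := Submodule.mem_span_singleton.1 (h2 (b 1))
  have hf1 : f (b 1) = mu • b 0 + b 1 := by rw [hmu]; abel
  have hM : LinearMap.toMatrix b b f = !![lam, mu; 0, 1] := by
    ext i j
    rw [LinearMap.toMatrix_apply]
    fin_cases j
    · show b.repr (f (b 0)) i = _
      rw [← hlam]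
      fin_cases i <;> simp
    · show b.repr (f (b 1)) i = _
      rw [hf1]
      fin_cases i <;> simp
  have hdet : LinearMap.det f = lam := by
    rw [← LinearMap.det_toMatrix b, hM, Matrix.det_fin_two_of]
    ring
  have htr : LinearMap.trace k V f = lam + 1 := by
    rw [LinearMap.trace_eq_matrix_trace k b, hM, Matrix.trace_fin_two_of]
  refine ⟨by rw [htr, hdet, add_comm], ?_⟩
  intro v hv
  obtain ⟨c, rfl⟩ := Submodule.mem_span_singleton.1 hv
  rw [map_smul, ← hlam, hdet, smul_comm]

theorem stmt_ResOrd : Stmt_ResOrd := by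
  intro A _ _ ρ p P hP hord
  obtain ⟨L, ⟨b, rfl⟩, hD, hI⟩ := hord P hP
  let φ : Module.End A ρ.V →ₐ[A]
      Module.End (IsLocalRing.ResidueField A) (IsLocalRing.ResidueField A ⊗[A] ρ.V) :=
    Module.End.baseChangeHom A (IsLocalRing.ResidueField A) ρ.V
  have hle : ∀ s ∈ P.inertiaSubgroupIn ℚ, s ∈ P.decompositionSubgroup ℚ := by
    rintro _ ⟨s, -, rfl⟩
    exact s.2
  have key := fun s hs => ResOrd_lin b (φ (ρ.ρ s)) (hD s (hle s hs)) (hI s hs)
  have htr : ∀ f : Module.End A ρ.V, LinearMap.trace (IsLocalRing.ResidueField A) _ (φ f)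
      = IsLocalRing.residue A (LinearMap.trace A ρ.V f) :=
    fun f => LinearMap.trace_baseChange f _
  have hdet : ∀ f : Module.End A ρ.V, LinearMap.det (φ f)
      = IsLocalRing.residue A (LinearMap.det f) :=
    fun f => LinearMap.det_baseChange f
  constructor
  · intro s hs
    rw [← IsLocalRing.residue_eq_zero_iff, map_sub, map_sub, map_one, ← htr, ← hdet]
    have h := (key s hs).1
    change LinearMap.trace (IsLocalRing.ResidueField A) _ (φ (ρ.ρ s)) = 1 + LinearMap.det (φ (ρ.ρ s))
      at h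
    rw [h]
    ring
  · intro s hs t ht Y
    rw [← IsLocalRing.residue_eq_zero_iff, ← htr, map_mul φ, map_mul φ, map_sub φ, map_sub φ,
      map_one φ, map_smul φ, map_one φ]
    have h0 : (φ (ρ.ρ t) - LinearMap.det (ρ.ρ t) • 1) * (φ (ρ.ρ s) - 1) = 0 := by
      apply LinearMap.ext
      intro v
      have h1 := (key t ht).2 _ (hI s hs v)
      change φ (ρ.ρ t) (φ (ρ.ρ s) v - v) = LinearMap.det (φ (ρ.ρ t)) • (φ (ρ.ρ s) v - v) at h1
      rw [Module.End.mul_apply, LinearMap.sub_apply, LinearMap.sub_apply, Module.End.one_apply,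
        LinearMap.smul_apply, Module.End.one_apply, h1, hdet, LinearMap.zero_apply, sub_eq_zero]
      rfl
    rw [h0, zero_mul, map_zero]

end Fermat.Agent.ORD.TR
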