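import Fermat.Agent.ORD.TR.Core
import Fermat.Agent.ORD.TR.CH2
import Fermat.Agent.ORD.TR.ResOrd
import Fermat.Agent.ORD.TR.H3
import Fermat.Agent.ORD.TR.OrdOfId
import Fermat.Agent.ORD.TR.Idem

/-!
# ORD / TR : the abstract core (`V`-side) and the abstract form of `S33`
-/

set_option autoImplicit false

namespace Fermat.Agent.ORD.TR

local notation "Γℚ" => (AlgebraicClosure ℚ ≃ₐ[ℚ] AlgebraicClosure ℚ)

section V

variable {R : Type} [CommRing R] {ε : Γℚ →* Rˣ} {t : Γℚ → R} {T : Type} [CommRing T]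
  [IsLocalRing T]

/-- the Cayley--Hamilton representation attached to `ρ`. -/
noncomputable def repV (ρ : GaloisRepAdic T) (Pi : R →+* T)
    (hdet : ∀ g, Pi (ε g : R) = LinearMap.det (ρ.ρ g))
    (htr : ∀ g, Pi (t g) = LinearMap.trace T ρ.V (ρ.ρ g)) : CHRep ε t (Module.End T ρ.V) where
  φ := (algebraMap T (Module.End T ρ.V)).comp Pi
  α := ρ.ρ
  comm := fun r g => Algebra.commutes (Pi r) (ρ.ρ g)
  ch := fun g => by
    have := stmt_CH2 T ρ.V ρ.finrank_eq (ρ.ρ g) (ρ.ρ g⁻¹)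
      (by rw [← map_mul, mul_inv_cancel, map_one])
    rw [RingHom.comp_apply, RingHom.comp_apply, hdet, htr, Algebra.algebraMap_eq_smul_one,
      Algebra.algebraMap_eq_smul_one, smul_mul_assoc, one_mul]
    exact this

variable (ρ : GaloisRepAdic T) (Pi : R →+* T)
    (hdet : ∀ g, Pi (ε g : R) = LinearMap.det (ρ.ρ g))
    (htr : ∀ g, Pi (t g) = LinearMap.trace T ρ.V (ρ.ρ g))

theorem repV_φ (r : R) : (repV ρ Pi hdet htr).φ r = Pi r • (1 : Module.End T ρ.V) := by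
  show algebraMap T (Module.End T ρ.V) (Pi r) = _
  rw [Algebra.algebraMap_eq_smul_one]

theorem repV_α (g : Γℚ) : (repV ρ Pi hdet htr).α g = ρ.ρ g := rfl

theorem trace_repV_ev (x : Fm R Γℚ) :
    LinearMap.trace T ρ.V ((repV ρ Pi hdet htr).ev x) = Pi (Fm.tr t x) := by
  induction x with
  | nil => simp [Fm.tr]
  | cons a x ih =>
    rw [CHRep.ev_cons, map_add, ih, repV_φ, repV_α, smul_mul_assoc, one_mul, map_smul, ← htr]
    simp [Fm.tr]

end V

theorem isUnit_one_add_of_mem {T : Type*} [CommRing T] [IsLocalRing T] {m : T}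
    (hm : m ∈ IsLocalRing.maximalIdeal T) : IsUnit (1 + m) := by
  by_contra h
  have h1 : 1 + m ∈ IsLocalRing.maximalIdeal T := (IsLocalRing.mem_maximalIdeal _).mpr h
  have h2 : (1 : T) ∈ IsLocalRing.maximalIdeal T := by
    have := Ideal.sub_mem _ h1 hm
    simpa using this
  exact (Ideal.ne_top_iff_one _).mp (IsLocalRing.maximalIdeal.isMaximal T).ne_top h2

/-- **The abstract form of `S33`.** -/
theorem ord_of_data {p : ℕ} [Fact p.Prime] {R : Type} [CommRing R] [Algebra ℤ_[p] R]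
    [Module.Finite ℤ_[p] R] {ε : Γℚ →* Rˣ} {t : Γℚ → R}
    {Λ : Type} [AddCommGroup Λ] [Module ℤ_[p] Λ] [Module.IsTorsionFree ℤ_[p] Λ]
    (W : CHRep ε t (Module.End ℤ_[p] Λ)) (hinj : Function.Injective W.φ) (εp : Γℚ → ℤ_[p])
    (hε : ∀ g, W.φ (ε g : R) = εp g • (1 : Module.End ℤ_[p] Λ))
    {T : Type} [CommRing T] [IsLocalRing T] (hpT : (p : T) ∈ IsLocalRing.maximalIdeal T)
    (ρ : GaloisRepAdic T) (habs : ρ.residual.IsAbsolutelyIrreducible)
    (hres : (GaloisRepAdic.ofResidualGaloisRep ρ.residual).IsOrdinaryAt p)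
    (Pi : R →+* T)
    (hdet : ∀ g, Pi (ε g : R) = LinearMap.det (ρ.ρ g))
    (htr : ∀ g, Pi (t g) = LinearMap.trace T ρ.V (ρ.ρ g))
    (P : ValuationSubring (AlgebraicClosure ℚ)) (hP : P.LiesOverPrime p)
    (hC : AbsClause W εp (P.inertiaSubgroupIn ℚ : Set Γℚ)
      (augL W (P.inertiaSubgroupIn ℚ : Set Γℚ)))
    (hram : ∃ s ∈ P.inertiaSubgroupIn ℚ, ∃ u' : R, ((ε s : R) - 1) * u' = 1) :
    ∃ L : Submodule T ρ.V,
      (∃ b : Module.Basis (Fin 2) T ρ.V, L = T ∙ b 0) ∧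
      (∀ σ ∈ P.decompositionSubgroup ℚ, ∀ v ∈ L, ρ.ρ σ v ∈ L) ∧
      (∀ σ ∈ P.inertiaSubgroupIn ℚ, ∀ v : ρ.V, ρ.ρ σ v - v ∈ L) := by
  obtain ⟨s', hs', u', hu⟩ := hram
  obtain ⟨hres1, hres2⟩ := stmt_ResOrd T ρ p P hP hres
  obtain ⟨e, he, hPe, hunit, hsoc⟩ := stmt_Idem p R T Pi hpT
  set WV := repV ρ Pi hdet htr with hWV
  have hφ : ∀ r, WV.φ r = Pi r • (1 : Module.End T ρ.V) := repV_φ ρ Pi hdet htr
  have hα : ∀ g, WV.α g = ρ.ρ g := fun _ => rfl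
  have htrev : ∀ x, LinearMap.trace T ρ.V (WV.ev x) = Pi (Fm.tr t x) :=
    trace_repV_ev ρ Pi hdet htr
  have hPu : (LinearMap.det (ρ.ρ s') - 1) * Pi u' = 1 := by
    rw [← hdet, ← map_one Pi, ← map_sub, ← map_mul, hu, map_one]
  have hν : Pi (1 + (ε s' : R) - t s') ∈ IsLocalRing.maximalIdeal T := by
    rw [map_sub, map_add, map_one, hdet, htr]
    have h2 : 1 + LinearMap.det (ρ.ρ s') - LinearMap.trace T ρ.V (ρ.ρ s')
        = -(LinearMap.trace T ρ.V (ρ.ρ s') - 1 - LinearMap.det (ρ.ρ s')) := by ring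
    rw [h2]
    exact neg_mem (hres1 s' hs')
  have hone : LinearMap.trace T ρ.V 1 = 2 := by
    rw [LinearMap.trace_one, ρ.finrank_eq]; norm_num
  have hX0 : LinearMap.trace T ρ.V (WV.ev (piF u' s'))
      = 1 + Pi u' * (LinearMap.trace T ρ.V (ρ.ρ s') - 1 - LinearMap.det (ρ.ρ s')) := by
    rw [piF, CHRep.ev_smul, CHRep.ev_Nf, hφ, hα, smul_mul_assoc, one_mul, map_smul, map_sub, hone,
      smul_eq_mul]
    linear_combination hPu
  have hX : IsUnit (LinearMap.trace T ρ.V (WV.ev (piF u' s'))) := by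
    rw [hX0]
    exact isUnit_one_add_of_mem (Ideal.mul_mem_left _ _ (hres1 s' hs'))
  have hY : IsUnit (LinearMap.trace T ρ.V (WV.evs (piF u' s'))) := by
    have h1 := congrArg (LinearMap.trace T ρ.V) (WV.ev_add_evs (piF u' s'))
    rw [map_add, hφ, map_smul, hone, ← htrev, smul_eq_mul] at h1
    have h2 : LinearMap.trace T ρ.V (WV.evs (piF u' s'))
        = LinearMap.trace T ρ.V (WV.ev (piF u' s')) := by linear_combination h1
    rw [h2]
    exact hX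
  obtain ⟨g, h, hgh⟩ := stmt_H3 T ρ habs _ _ hX hY
  have hr : IsUnit (Pi (r1 ε t (piF u' s') g h)) := by
    rw [r1, ← htrev, CHRep.ev_mul, CHRep.ev_mul, CHRep.ev_mul, CHRep.ev_of, CHRep.ev_of,
      CHRep.ev_st, LinearMap.trace_mul_comm, hα, hα]
    simpa only [mul_assoc] using hgh
  have hI : ∀ s ∈ (P.inertiaSubgroupIn ℚ : Set Γℚ), ∀ y,
      Pi (Fm.tr t (Fm.mul (Fm.mul (Ef ε s) (piF u' s')) y)) ∈ IsLocalRing.maximalIdeal T := by
    intro s hs y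
    rw [← htrev, CHRep.ev_mul, CHRep.ev_mul, CHRep.ev_Ef, piF, CHRep.ev_smul, CHRep.ev_Nf, hφ, hφ,
      hα, hα, hdet]
    have h1 : (ρ.ρ s - LinearMap.det (ρ.ρ s) • (1 : Module.End T ρ.V))
          * (Pi u' • (1 : Module.End T ρ.V) * (ρ.ρ s' - 1)) * WV.ev y
        = Pi u' • ((ρ.ρ s - LinearMap.det (ρ.ρ s) • (1 : Module.End T ρ.V))
          * (ρ.ρ s' - 1) * WV.ev y) := by
      rw [smul_mul_assoc, one_mul, mul_smul_comm, smul_mul_assoc]
    rw [h1, map_smul, smul_eq_mul]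
    exact Ideal.mul_mem_left _ _ (hres2 s' hs' s hs _)
  have key := core_abs W hinj εp hε _ hC Pi e he hPe hunit hsoc hs' hu hν hr hI
  apply stmt_OrdOfId stmt_CH2 T ρ P ⟨s', hs', IsUnit.of_mul_eq_one _ hPu⟩
  intro s hs s₂ hs₂
  apply stmt_TraceZero T ρ habs
  intro g₂
  have h1 := key s hs s₂ hs₂ g₂
  rw [← htrev, CHRep.ev_mul, CHRep.ev_mul, CHRep.ev_st, CHRep.evs_Nf, CHRep.ev_Nf, CHRep.ev_of,
    hφ, hα, hα, hα, hdet, smul_mul_assoc, one_mul] at h1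
  exact h1

end Fermat.Agent.ORD.TR
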