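import Fermat.Agent.ORD.TR.Formal

/-!
# ORD / TR : sub- and quotient Cayley--Hamilton representations

`W : CHRep ε t (Module.End A Λ)`; a submodule stable under the scalars `W.φ r` and the group
`W.α g` carries the restricted representation `W.restr`, and the quotient carries `W.quot`.
-/

set_option autoImplicit false

namespace Fermat.Agent.ORD.TR

variable {R G : Type*} [CommRing R] [Group G] {ε : G →* Rˣ} {t : G → R}
variable {A Lam : Type*} [CommRing A] [AddCommGroup Lam] [Module A Lam]

/-- restriction of a Cayley--Hamilton representation to a stable submodule. -/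
noncomputable def CHRep.restr (W : CHRep ε t (Module.End A Lam)) (B : Submodule A Lam)
    (hφ : ∀ r, ∀ v ∈ B, W.φ r v ∈ B) (hα : ∀ g, ∀ v ∈ B, W.α g v ∈ B) :
    CHRep ε t (Module.End A B) where
  φ :=
    { toFun := fun r => (W.φ r).restrict (hφ r)
      map_one' := by
        ext v
        simp [LinearMap.restrict_apply]
      map_mul' := by
        intro r s
        ext v
        simp [LinearMap.restrict_apply]
      map_zero' := by
        ext v
        simp [LinearMap.restrict_apply]
      map_add' := by
        intro r s
        ext v
        simp [LinearMap.restrict_apply] }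
  α :=
    { toFun := fun g => (W.α g).restrict (hα g)
      map_one' := by
        ext v
        simp [LinearMap.restrict_apply]
      map_mul' := by
        intro r s
        ext v
        simp [LinearMap.restrict_apply] }
  comm := by
    intro r g
    ext v
    have := LinearMap.congr_fun (W.comm r g) (v : Lam)
    simpa [LinearMap.restrict_apply] using this
  ch := by
    intro g
    ext v
    have := LinearMap.congr_fun (W.ch g) (v : Lam)
    simpa [LinearMap.restrict_apply] using this

section restr

variable (W : CHRep ε t (Module.End A Lam)) (B : Submodule A Lam)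
  (hφ : ∀ r, ∀ v ∈ B, W.φ r v ∈ B) (hα : ∀ g, ∀ v ∈ B, W.α g v ∈ B)

theorem restr_φ_apply (r : R) (v : B) : ((W.restr B hφ hα).φ r v : Lam) = W.φ r v := rfl

theorem restr_α_apply (g : G) (v : B) : ((W.restr B hφ hα).α g v : Lam) = W.α g v := rfl

theorem restr_ev_apply (x : Fm R G) (v : B) :
    ((W.restr B hφ hα).ev x v : Lam) = W.ev x v := by
  induction x with
  | nil => simp [CHRep.ev]
  | cons a x ih =>
    have h1 : (W.restr B hφ hα).ev (a :: x) =
        (W.restr B hφ hα).φ a.1 * (W.restr B hφ hα).α a.2 + (W.restr B hφ hα).ev x := by
      simp [CHRep.ev]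
    have h2 : W.ev (a :: x) = W.φ a.1 * W.α a.2 + W.ev x := by
      simp [CHRep.ev]
    rw [h1, h2, LinearMap.add_apply, LinearMap.add_apply, Submodule.coe_add, ih,
      Module.End.mul_apply, Module.End.mul_apply, restr_φ_apply, restr_α_apply]

end restr

/-- the quotient of a Cayley--Hamilton representation by a stable submodule. -/
noncomputable def CHRep.quot (W : CHRep ε t (Module.End A Lam)) (C : Submodule A Lam)
    (hφ : ∀ r, ∀ v ∈ C, W.φ r v ∈ C) (hα : ∀ g, ∀ v ∈ C, W.α g v ∈ C) :
    CHRep ε t (Module.End A (Lam ⧸ C)) where
  φ :=
    { toFun := fun r => C.mapQ C (W.φ r) (hφ r)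
      map_one' := by
        ext v
        simp
      map_mul' := by
        intro r s
        ext v
        simp
      map_zero' := by
        ext v
        simp
      map_add' := by
        intro r s
        ext v
        simp }
  α :=
    { toFun := fun g => C.mapQ C (W.α g) (hα g)
      map_one' := by
        ext v
        simp
      map_mul' := by
        intro r s
        ext v
        simp }
  comm := by
    intro r g
    ext v
    have := congrArg (Submodule.Quotient.mk (p := C)) (LinearMap.congr_fun (W.comm r g) v)
    simpa using this
  ch := by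
    intro g
    ext v
    have := congrArg (Submodule.Quotient.mk (p := C)) (LinearMap.congr_fun (W.ch g) v)
    simpa using this

section quot

variable (W : CHRep ε t (Module.End A Lam)) (C : Submodule A Lam)
  (hφ : ∀ r, ∀ v ∈ C, W.φ r v ∈ C) (hα : ∀ g, ∀ v ∈ C, W.α g v ∈ C)

theorem quot_φ_apply (r : R) (v : Lam) :
    (W.quot C hφ hα).φ r (Submodule.Quotient.mk v) = Submodule.Quotient.mk (W.φ r v) := rfl

theorem quot_α_apply (g : G) (v : Lam) :
    (W.quot C hφ hα).α g (Submodule.Quotient.mk v) = Submodule.Quotient.mk (W.α g v) := rfl

theorem quot_ev_apply (x : Fm R G) (v : Lam) :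
    (W.quot C hφ hα).ev x (Submodule.Quotient.mk v) = Submodule.Quotient.mk (W.ev x v) := by
  induction x with
  | nil => simp [CHRep.ev]
  | cons a x ih =>
    have h1 : (W.quot C hφ hα).ev (a :: x) =
        (W.quot C hφ hα).φ a.1 * (W.quot C hφ hα).α a.2 + (W.quot C hφ hα).ev x := by
      simp [CHRep.ev]
    have h2 : W.ev (a :: x) = W.φ a.1 * W.α a.2 + W.ev x := by
      simp [CHRep.ev]
    rw [h1, h2, LinearMap.add_apply, LinearMap.add_apply, Submodule.Quotient.mk_add, ih,
      Module.End.mul_apply, Module.End.mul_apply, quot_α_apply, quot_φ_apply]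

end quot

end Fermat.Agent.ORD.TR
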