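import Fermat.Agent.ORD.TR.Abstract
import Fermat.Agent.ORD.TR.SubQuot

/-!
# ORD / TR : hypothesis (H1) from the (abstract) ordinary clause
-/

set_option autoImplicit false

namespace Fermat.Agent.ORD.TR

section H1

variable {p : ℕ} [Fact p.Prime] {R : Type} [CommRing R] {G : Type*} [Group G]
  {ε : G →* Rˣ} {t : G → R} {Λ : Type} [AddCommGroup Λ] [Module ℤ_[p] Λ]

/-- `p Λ`. -/
noncomputable def pT (p : ℕ) [Fact p.Prime] (Λ : Type) [AddCommGroup Λ] [Module ℤ_[p] Λ] :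
    Submodule ℤ_[p] Λ :=
  (Ideal.span {(p : ℤ_[p])}) • (⊤ : Submodule ℤ_[p] Λ)

theorem map_mem_pT (f : Module.End ℤ_[p] Λ) {v : Λ} (hv : v ∈ pT p Λ) : f v ∈ pT p Λ := by
  have h1 : (pT p Λ).map f ≤ pT p Λ := by
    rw [pT, Submodule.map_smul'']
    exact Submodule.smul_mono le_rfl le_top
  exact h1 (Submodule.mem_map_of_mem hv)

theorem smul_mem_pT (v : Λ) : (p : ℤ_[p]) • v ∈ pT p Λ :=
  Submodule.smul_mem_smul (Ideal.subset_span rfl) Submodule.mem_top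

/-- the abstract form of the ordinary clause. -/
def AbsClause (W : CHRep ε t (Module.End ℤ_[p] Λ)) (εp : G → ℤ_[p]) (I : Set G)
    (L : Submodule ℤ_[p] Λ) : Prop :=
  ∀ M : Submodule ℤ_[p] Λ, M ≠ ⊥ →
    (∀ v : Λ, (p : ℤ_[p]) • v ∈ M → v ∈ M) →
    (∀ f : Module.End ℤ_[p] Λ, (∀ r, f * W.φ r = W.φ r * f) → ∀ v ∈ M, f v ∈ M) →
    (∀ v ∈ M, ∃ n : ℕ, (p : ℤ_[p]) ^ n • v ∈ L) →
    ∃ Z : Submodule ℤ_[p] Λ, Z ≤ M ∧ ¬ Z ≤ pT p Λ ∧
      (∀ g, ∀ z ∈ Z, W.α g z ∈ Z) ∧ (∀ r, ∀ z ∈ Z, W.φ r z ∈ Z) ∧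
      ((∀ z ∈ Z, ∀ s ∈ I, W.α s z - εp s • z ∈ pT p Λ) ∨
       (∀ z ∈ Z, (∀ s ∈ I, W.α s z - εp s • z ∈ pT p Λ) → z ∈ pT p Λ))

/-- the saturation of the range of `a`. -/
def satRange (a : Module.End ℤ_[p] Λ) : Submodule ℤ_[p] Λ where
  carrier := {v | ∃ n : ℕ, (p : ℤ_[p]) ^ n • v ∈ LinearMap.range a}
  add_mem' := by
    rintro v w ⟨n, hn⟩ ⟨m, hm⟩
    refine ⟨n + m, ?_⟩
    have : (p : ℤ_[p]) ^ (n + m) • (v + w)
        = (p : ℤ_[p]) ^ m • ((p : ℤ_[p]) ^ n • v) + (p : ℤ_[p]) ^ n • ((p : ℤ_[p]) ^ m • w) := by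
      rw [smul_add, smul_smul, smul_smul, pow_add, mul_comm]
    rw [this]
    exact Submodule.add_mem _ (Submodule.smul_mem _ _ hn) (Submodule.smul_mem _ _ hm)
  zero_mem' := ⟨0, by simp⟩
  smul_mem' := by
    rintro b v ⟨n, hn⟩
    refine ⟨n, ?_⟩
    rw [smul_comm]
    exact Submodule.smul_mem _ _ hn

theorem mem_satRange {a : Module.End ℤ_[p] Λ} {v : Λ} :
    v ∈ satRange a ↔ ∃ n : ℕ, (p : ℤ_[p]) ^ n • v ∈ LinearMap.range a := Iff.rfl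

theorem h1_abs [Module.IsTorsionFree ℤ_[p] Λ]
    (W : CHRep ε t (Module.End ℤ_[p] Λ)) (εp : G → ℤ_[p])
    (hε : ∀ g, W.φ (ε g : R) = εp g • (1 : Module.End ℤ_[p] Λ))
    (I : Set G) (L : Submodule ℤ_[p] Λ) (hC : AbsClause W εp I L)
    (Small : R → Prop) (e : R) (he : e * e = e)
    (hsoc : ∀ (Wm : Type) [AddCommGroup Wm] [Module R Wm], Nontrivial Wm →
      (∀ w : Wm, e • w = w) → (∀ w : Wm, (p : R) • w = 0) →
      ∃ w : Wm, w ≠ 0 ∧ ∀ r, Small r → r • w = 0)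
    {s' : G} (hs' : s' ∈ I) {u' : R} (hu : ((ε s' : R) - 1) * u' = 1)
    (hν : Small (1 + (ε s' : R) - t s'))
    {g h : G} {r' : R} (hr : r1 ε t (piF u' s') g h * r' * e = e)
    (hI : ∀ s ∈ I, ∀ y, Small (Fm.tr t (Fm.mul (Fm.mul (Ef ε s) (piF u' s')) y)))
    (c : R) (hc : ∀ v, W.φ (c * e) v ∈ L) : W.φ (c * e) = 0 := by
  by_contra hne
  set a := W.φ (c * e) with ha
  have hp0 : (p : ℤ_[p]) ≠ 0 := by exact_mod_cast (Fact.out : p.Prime).ne_zero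
  -- the module `M`
  have hM0 : satRange a ≠ ⊥ := by
    intro hbot
    apply hne
    ext w
    have : a w ∈ satRange a := ⟨0, by simp⟩
    rw [hbot, Submodule.mem_bot] at this
    simpa using this
  have hsat : ∀ v : Λ, (p : ℤ_[p]) • v ∈ satRange a → v ∈ satRange a := by
    rintro v ⟨n, hn⟩
    exact ⟨n + 1, by rwa [pow_succ, mul_smul]⟩
  have hcomm : ∀ f : Module.End ℤ_[p] Λ, (∀ r, f * W.φ r = W.φ r * f) →
      ∀ v ∈ satRange a, f v ∈ satRange a := by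
    rintro f hf v ⟨n, w, hw⟩
    refine ⟨n, f w, ?_⟩
    rw [← map_smul, ← hw, ← Module.End.mul_apply, ← Module.End.mul_apply, ha, hf]
  have hL : ∀ v ∈ satRange a, ∃ n : ℕ, (p : ℤ_[p]) ^ n • v ∈ L := by
    rintro v ⟨n, w, hw⟩
    exact ⟨n, hw ▸ hc w⟩
  obtain ⟨Z, hZM, hZp, hZα, hZφ, hcase⟩ := hC _ hM0 hsat hcomm hL
  -- `e` is the identity on `M`
  have heM : ∀ v ∈ satRange a, W.φ e v = v := by
    rintro v ⟨n, w, hw⟩
    have h1 : W.φ e (a w) = a w := by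
      rw [ha, ← Module.End.mul_apply, ← map_mul, mul_comm e, mul_assoc, he]
    rw [hw, map_smul] at h1
    exact smul_right_injective Λ (pow_ne_zero n hp0) h1
  -- the quotient `Q = Λ / p Λ`
  let WQ := W.quot (pT p Λ) (fun r v hv => map_mem_pT _ hv) (fun g v hv => map_mem_pT _ hv)
  let Zb : Submodule ℤ_[p] (Λ ⧸ pT p Λ) := Z.map (pT p Λ).mkQ
  have hZbφ : ∀ r, ∀ q ∈ Zb, WQ.φ r q ∈ Zb := by
    rintro r q ⟨z, hz, rfl⟩
    exact ⟨W.φ r z, hZφ r z hz, rfl⟩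
  have hZbα : ∀ g, ∀ q ∈ Zb, WQ.α g q ∈ Zb := by
    rintro g q ⟨z, hz, rfl⟩
    exact ⟨W.α g z, hZα g z hz, rfl⟩
  have hZbe : ∀ q ∈ Zb, WQ.φ e q = q := by
    rintro q ⟨z, hz, rfl⟩
    show Submodule.Quotient.mk (W.φ e z) = Submodule.Quotient.mk z
    rw [heM z (hZM hz)]
  have hpQ : ∀ q : Λ ⧸ pT p Λ, WQ.φ (p : R) q = 0 := by
    intro q
    obtain ⟨v, rfl⟩ := Submodule.Quotient.mk_surjective _ q
    show Submodule.Quotient.mk (W.φ (p : R) v) = 0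
    rw [Submodule.Quotient.mk_eq_zero, map_natCast]
    have : ((p : Module.End ℤ_[p] Λ)) v = (p : ℤ_[p]) • v := by
      rw [Module.End.natCast_apply, Nat.cast_smul_eq_nsmul]
    rw [this]
    exact smul_mem_pT v
  -- the socle
  obtain ⟨w₀, hw₀, hw₀s⟩ : ∃ q ∈ Zb, q ≠ 0 ∧ ∀ r, Small r → WQ.φ r q = 0 := by
    let WZ := WQ.restr Zb hZbφ hZbα
    letI : Module R Zb := Module.compHom Zb WZ.φ
    have hnt : Nontrivial Zb := by
      obtain ⟨z, hz, hzp⟩ := Set.not_subset.mp hZp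
      refine ⟨⟨⟨(pT p Λ).mkQ z, z, hz, rfl⟩, 0, ?_⟩⟩
      intro h0
      apply hzp
      have := congrArg Subtype.val h0
      simpa [Submodule.Quotient.mk_eq_zero] using this
    obtain ⟨w, hw, hws⟩ := hsoc Zb hnt
      (fun w => Subtype.ext (hZbe w.1 w.2)) (fun w => Subtype.ext (hpQ w.1))
    refine ⟨w.1, w.2, fun h0 => hw (Subtype.ext h0), fun r hr => ?_⟩
    exact congrArg Subtype.val (hws r hr)
  -- the module `Z₁`
  let Z1 : Submodule ℤ_[p] (Λ ⧸ pT p Λ) :=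
    { carrier := {q | q ∈ Zb ∧ ∀ r, Small r → WQ.φ r q = 0}
      add_mem' := fun {x y} hx hy => ⟨Zb.add_mem hx.1 hy.1, fun r hr => by
        rw [map_add, hx.2 r hr, hy.2 r hr, add_zero]⟩
      zero_mem' := ⟨Zb.zero_mem, fun r _ => map_zero _⟩
      smul_mem' := fun b x hx => ⟨Zb.smul_mem b hx.1, fun r hr => by
        rw [map_smul, hx.2 r hr, smul_zero]⟩ }
  have hZ1φ : ∀ r, ∀ q ∈ Z1, WQ.φ r q ∈ Z1 := by
    rintro r q ⟨hq, hqs⟩
    refine ⟨hZbφ r q hq, fun r₂ hr₂ => ?_⟩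
    rw [← Module.End.mul_apply, WQ.φ_comm_φ, Module.End.mul_apply, hqs r₂ hr₂, map_zero]
  have hZ1α : ∀ g, ∀ q ∈ Z1, WQ.α g q ∈ Z1 := by
    rintro g q ⟨hq, hqs⟩
    refine ⟨hZbα g q hq, fun r₂ hr₂ => ?_⟩
    rw [← Module.End.mul_apply, WQ.comm, Module.End.mul_apply, hqs r₂ hr₂, map_zero]
  let W1 := WQ.restr Z1 hZ1φ hZ1α
  have hnt1 : Nontrivial Z1 := ⟨⟨⟨w₀, hw₀, hw₀s.2⟩, 0, fun h0 => hw₀s.1 (congrArg Subtype.val h0)⟩⟩
  have hntE : Nontrivial (Module.End ℤ_[p] Z1) := inferInstance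
  have hsmall : ∀ r, Small r → W1.φ r = 0 := by
    intro r hr
    ext q
    exact q.2.2 r hr
  have he1 : W1.φ e = 1 := by
    ext q
    exact hZbe q.1 q.2.1
  have hr1 : ∃ r'' : R, W1.φ r'' * W1.φ (r1 ε t (piF u' s') g h) = 1 := by
    refine ⟨r', ?_⟩
    rw [← map_mul, ← mul_one (W1.φ _), ← he1, ← map_mul, mul_comm r', hr]
  have hν1 : W1.φ (1 + (ε s' : R) - t s') = 0 := hsmall _ hν
  have hεQ : ∀ (g : G) (v : Λ), WQ.φ (ε g : R) (Submodule.Quotient.mk v)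
      = Submodule.Quotient.mk (εp g • v) := by
    intro g v
    show Submodule.Quotient.mk (W.φ (ε g : R) v) = _
    rw [hε]
    rfl
  rcases hcase with hα | hβ
  · -- case (α)
    apply CHRep.res_b (W := W1) hu hν1 hr1
    ext q
    obtain ⟨z, hz, hzq⟩ := q.2.1
    show WQ.α s' q.1 = WQ.φ (ε s' : R) q.1
    rw [← hzq]
    show Submodule.Quotient.mk (W.α s' z) = WQ.φ (ε s' : R) (Submodule.Quotient.mk z)
    rw [hεQ, Submodule.Quotient.eq]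
    exact hα z hz s' hs'
  · -- case (β)
    obtain ⟨hP, hPI⟩ := CHRep.res_a (W := W1) I hu hν1 hr1 (fun s hs y => hsmall _ (hI s hs y))
    obtain ⟨x₀, hx₀⟩ : ∃ x₀, W1.ev (piF u' s') x₀ ≠ 0 := by
      by_contra hall
      push Not at hall
      exact hP (LinearMap.ext hall)
    set x := W1.ev (piF u' s') x₀ with hx
    obtain ⟨z, hz, hzq⟩ := x.2.1
    apply hx₀
    apply Subtype.ext
    rw [← hzq]
    show Submodule.Quotient.mk z = 0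
    rw [Submodule.Quotient.mk_eq_zero]
    apply hβ z hz
    intro s hs
    have h1 := LinearMap.congr_fun (hPI s hs) x₀
    rw [Module.End.mul_apply, ← hx, LinearMap.sub_apply, LinearMap.zero_apply, sub_eq_zero] at h1
    have h2 : WQ.α s x.1 = WQ.φ (ε s : R) x.1 := congrArg Subtype.val h1
    rw [← hzq] at h2
    have h3 : (Submodule.Quotient.mk (W.α s z) : Λ ⧸ pT p Λ)
        = WQ.φ (ε s : R) (Submodule.Quotient.mk z) := h2
    rw [hεQ, Submodule.Quotient.eq] at h3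
    exact h3

end H1

end Fermat.Agent.ORD.TR
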